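/-
P-S56, block (B), leaf `Lib/ModRep` (induction theorem for Euler characteristics; owner of the
directory: helper66).  This file (helper14): **Artin's induction identity in fixed-point form**,
for the `p`-regular elements and the cyclic subgroups of order prime to `p`.

For a finite group `G` and a natural number `p` there are integers `a D` (`D` a cyclic subgroup
of `G` of order prime to `p`) such that for every `h : G` of order prime to `p`

  `∑ D, a D * card (fixedBy (G ⧸ D) h) = card G`.

The coefficients are defined by downward recursion on the finite poset of subgroups (no Möbius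
function, no structure theory of cyclic groups).
-/
import Mathlib

set_option autoImplicit false

open Finset

namespace Fermat.Agent.Lib.ModRep

variable {G : Type*} [Group G] [Finite G]

/-- cyclic subgroups of order prime to `p` -/
def IsCycReg (p : ℕ) (D : Subgroup G) : Prop := IsCyclic D ∧ (Nat.card D).Coprime p

theorem isCycReg_zpowers {p : ℕ} {h : G} (hh : (orderOf h).Coprime p) :
    IsCycReg p (Subgroup.zpowers h) :=
  ⟨inferInstance, by rwa [Nat.card_zpowers]⟩

theorem IsCycReg.of_le {p : ℕ} {D C : Subgroup G} (hC : IsCycReg p C) (h : D ≤ C) :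
    IsCycReg p D := by
  haveI := hC.1
  refine ⟨?_, Nat.Coprime.coprime_dvd_left (Subgroup.card_dvd_of_le h) hC.2⟩
  have : IsCyclic (D.subgroupOf C) := inferInstance
  exact isCyclic_of_surjective (Subgroup.subgroupOfEquivOfLe h).toMonoidHom
    (Subgroup.subgroupOfEquivOfLe h).surjective

noncomputable instance : Fintype (Subgroup G) := Fintype.ofFinite _

open Classical in
/-- the Artin coefficients, by downward recursion:
`α H = 1 - ∑_{D > H, D cyclic of order prime to p} α D`. -/
noncomputable def artinAlpha (p : ℕ) : Subgroup G → ℤ :=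
  WellFounded.fix (wellFounded_gt (α := Subgroup G)) fun H ih =>
    1 - ∑ D : {D : Subgroup G // H < D ∧ IsCycReg p D}, ih D.1 D.2.1

open Classical in
theorem artinAlpha_eq (p : ℕ) (H : Subgroup G) :
    artinAlpha p H = 1 - ∑ D : {D : Subgroup G // H < D ∧ IsCycReg p D}, artinAlpha p D.1 := by
  unfold artinAlpha
  rw [WellFounded.fix_eq]

open Classical in
/-- the defining property of the coefficients -/
theorem sum_artinAlpha_of_le (p : ℕ) {H : Subgroup G} (hH : IsCycReg p H) :
    ∑ D ∈ univ.filter (fun D : Subgroup G => H ≤ D ∧ IsCycReg p D), artinAlpha p D = 1 := by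
  have hsplit : univ.filter (fun D : Subgroup G => H ≤ D ∧ IsCycReg p D)
      = insert H (univ.filter (fun D : Subgroup G => H < D ∧ IsCycReg p D)) := by
    ext D
    simp only [mem_filter, mem_univ, true_and, mem_insert]
    constructor
    · rintro ⟨hle, hD⟩
      rcases eq_or_lt_of_le hle with rfl | hlt
      · exact Or.inl rfl
      · exact Or.inr ⟨hlt, hD⟩
    · rintro (rfl | ⟨hlt, hD⟩)
      · exact ⟨le_rfl, hH⟩
      · exact ⟨hlt.le, hD⟩
  rw [hsplit, sum_insert (by simp), artinAlpha_eq p H]
  have : ∑ D : {D : Subgroup G // H < D ∧ IsCycReg p D}, artinAlpha p D.1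
      = ∑ D ∈ univ.filter (fun D : Subgroup G => H < D ∧ IsCycReg p D), artinAlpha p D := by
    rw [← Finset.sum_subtype (univ.filter (fun D : Subgroup G => H < D ∧ IsCycReg p D))
      (fun D => by simp) (fun D => artinAlpha p D)]
  rw [this]
  ring

open Classical in
/-- **key lemma**: for `h` of order prime to `p`, the coefficients of the cyclic `p'`-subgroups
containing `h` sum to `1`. -/
theorem sum_artinAlpha_of_mem (p : ℕ) {h : G} (hh : (orderOf h).Coprime p) :
    ∑ D ∈ univ.filter (fun D : Subgroup G => h ∈ D ∧ IsCycReg p D), artinAlpha p D = 1 := by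
  rw [← sum_artinAlpha_of_le p (isCycReg_zpowers hh)]
  refine Finset.sum_congr ?_ (fun _ _ => rfl)
  ext D
  simp only [mem_filter, mem_univ, true_and, Subgroup.zpowers_le]

/-- conjugates into `D` and fixed points on `G ⧸ D` -/
theorem card_conj_mem (D : Subgroup G) (h : G) :
    Nat.card {x : G // x⁻¹ * h * x ∈ D} = Nat.card D * Nat.card (MulAction.fixedBy (G ⧸ D) h) := by
  rw [← QuotientGroup.card_preimage_mk D (MulAction.fixedBy (G ⧸ D) h)]
  refine Nat.card_congr (Equiv.subtypeEquivRight fun x => ?_)
  simp only [Set.mem_preimage, MulAction.mem_fixedBy]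
  rw [show h • (QuotientGroup.mk x : G ⧸ D) = QuotientGroup.mk (h * x) from rfl,
    QuotientGroup.eq, ← inv_mem_iff (x := x⁻¹ * h * x)]
  simp [mul_assoc]

open Classical in
/-- **Artin's identity**, conjugation form. -/
theorem artin_conj (p : ℕ) {h : G} (hh : (orderOf h).Coprime p) :
    ∑ D ∈ univ.filter (fun D : Subgroup G => IsCycReg p D),
      artinAlpha p D * (Nat.card {x : G // x⁻¹ * h * x ∈ D} : ℤ) = Nat.card G := by
  haveI : Fintype G := Fintype.ofFinite G
  have hcard : ∀ D : Subgroup G, (Nat.card {x : G // x⁻¹ * h * x ∈ D} : ℤ)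
      = ∑ x : G, if x⁻¹ * h * x ∈ D then 1 else 0 := by
    intro D
    rw [Nat.card_eq_fintype_card, Fintype.card_subtype]
    simp
  simp_rw [hcard, Finset.mul_sum]
  rw [Finset.sum_comm]
  have hx : ∀ x : G, ∑ D ∈ univ.filter (fun D : Subgroup G => IsCycReg p D),
      artinAlpha p D * (if x⁻¹ * h * x ∈ D then (1 : ℤ) else 0) = 1 := by
    intro x
    have hord : (orderOf (x⁻¹ * h * x)).Coprime p := by
      have : SemiconjBy x⁻¹ h (x⁻¹ * h * x) := by
        simp [SemiconjBy, mul_assoc]
      rwa [← this.orderOf_eq]
    simp only [mul_ite, mul_one, mul_zero]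
    rw [← Finset.sum_filter, Finset.filter_filter]
    refine Eq.trans (Finset.sum_congr ?_ (fun _ _ => rfl)) (sum_artinAlpha_of_mem p hord)
    ext D
    simp only [mem_filter, mem_univ, true_and, and_comm]
  rw [Finset.sum_congr rfl (fun x _ => hx x)]
  simp [Nat.card_eq_fintype_card]

open Classical in
/-- **Artin's identity**, fixed-point form: with `a D := artinAlpha p D * card D`,
`∑_D a D * card (fixedBy (G ⧸ D) h) = card G` for every `h` of order prime to `p`; the sum is
over the cyclic subgroups of order prime to `p`. -/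
theorem artin_fixedBy (p : ℕ) {h : G} (hh : (orderOf h).Coprime p) :
    ∑ D ∈ univ.filter (fun D : Subgroup G => IsCycReg p D),
      (artinAlpha p D * (Nat.card D : ℤ)) * (Nat.card (MulAction.fixedBy (G ⧸ D) h) : ℤ)
        = Nat.card G := by
  rw [← artin_conj p hh]
  refine Finset.sum_congr rfl (fun D _ => ?_)
  rw [card_conj_mem D h]
  push_cast
  ring

/-- existence form of Artin's identity. -/
theorem exists_artin_coeff (p : ℕ) :
    ∃ a : Subgroup G → ℤ, (∀ D, a D ≠ 0 → IsCycReg p D) ∧
      ∀ h : G, (orderOf h).Coprime p →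
        ∑ᶠ D : Subgroup G, a D * (Nat.card (MulAction.fixedBy (G ⧸ D) h) : ℤ) = Nat.card G := by
  classical
  refine ⟨fun D => if IsCycReg p D then artinAlpha p D * (Nat.card D : ℤ) else 0, ?_, ?_⟩
  · intro D hD
    by_contra hcon
    simp [hcon] at hD
  · intro h hh
    rw [finsum_eq_sum_of_fintype, ← artin_fixedBy p hh, Finset.sum_filter]
    refine Finset.sum_congr rfl (fun D _ => ?_)
    by_cases hD : IsCycReg p D <;> simp [hD]

end Fermat.Agent.Lib.ModRep
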