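/-
P-S56 block (B), leaf for the induction theorem (owner of `Lib/ModRep`: helper66).
`ArtinPerm`: Artin's identity in `p`-regular form (pure finite group theory, Mathlib only).

* `exists_artin_coeff`: for a finite group `G` and a number `p`, let `cycP G p` be the (finite)
  set of cyclic subgroups of `G` of order prime to `p`.  There are integers `c D` such that for
  every `g : G` of order prime to `p`
  `∑ D ∈ cycP G p, c D * #(fixed points of g on G ⧸ D) = #G`.
* `exists_equiv_of_marks`: two permutations of finite sets all of whose powers have the same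
  number of fixed points are conjugate by a bijection.
* `exists_artin_sets`: the two statements combined, as an equivariant bijection of `⟨g⟩`-sets.
-/
import Mathlib

namespace Fermat.Agent.Lib.ModRep.ArtinPerm

open Subgroup

variable {G : Type*} [Group G] [Finite G]

/-- The set of cyclic subgroups of order prime to `p`. -/
noncomputable def cycP (G : Type*) [Group G] [Finite G] (p : ℕ) : Finset (Subgroup G) :=
  (Set.toFinite {D : Subgroup G | IsCyclic D ∧ (Nat.card D).Coprime p}).toFinset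

theorem mem_cycP {p : ℕ} {D : Subgroup G} :
    D ∈ cycP G p ↔ IsCyclic D ∧ (Nat.card D).Coprime p := by
  simp [cycP]

theorem zpowers_mem_cycP {p : ℕ} {h : G} (hh : (orderOf h).Coprime p) :
    zpowers h ∈ cycP G p := by
  rw [mem_cycP]
  refine ⟨inferInstance, ?_⟩
  rwa [Nat.card_zpowers]

theorem mem_cycP_of_le {p : ℕ} {C D : Subgroup G} (hC : C ∈ cycP G p) (hDC : D ≤ C) :
    D ∈ cycP G p := by
  rw [mem_cycP] at hC ⊢
  obtain ⟨hcyc, hcop⟩ := hC
  refine ⟨?_, Nat.Coprime.coprime_dvd_left (Subgroup.card_dvd_of_le hDC) hcop⟩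
  have : IsCyclic (D.subgroupOf C) := Subgroup.isCyclic _
  exact isCyclic_of_surjective _ (Subgroup.subgroupOfEquivOfLe hDC).surjective

omit [Finite G] in
theorem card_lt_card_of_lt [Finite G] {D C : Subgroup G} (h : D < C) : Nat.card D < Nat.card C := by
  have := Set.ncard_lt_ncard (SetLike.coe_ssubset_coe.2 h) (Set.toFinite _)
  rwa [← Nat.card_coe_set_eq, ← Nat.card_coe_set_eq] at this

/-- indicator of a subgroup -/
noncomputable def mInd (D : Subgroup G) : G → ℤ := by
  classical exact fun h => if h ∈ D then 1 else 0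

/-- indicator of "generates `D`" -/
noncomputable def eInd (D : Subgroup G) : G → ℤ := by
  classical exact fun h => if zpowers h = D then 1 else 0

omit [Finite G] in
theorem mInd_apply (D : Subgroup G) (h : G) [Decidable (h ∈ D)] :
    mInd D h = if h ∈ D then 1 else 0 := by
  unfold mInd; congr

omit [Finite G] in
theorem eInd_apply (D : Subgroup G) (h : G) [Decidable (zpowers h = D)] :
    eInd D h = if zpowers h = D then 1 else 0 := by
  unfold eInd; congr

open scoped Classical in
theorem eInd_eq (p : ℕ) {C : Subgroup G} (hC : C ∈ cycP G p) :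
    eInd C = mInd C - ∑ D ∈ (cycP G p).filter (· < C), eInd D := by
  funext h
  rw [Pi.sub_apply, Finset.sum_apply, eInd_apply, mInd_apply]
  have hsum : ∑ D ∈ (cycP G p).filter (· < C), eInd D h =
      if zpowers h < C then 1 else 0 := by
    simp_rw [eInd_apply]
    rw [Finset.sum_ite_eq]
    by_cases hlt : zpowers h < C
    · have : zpowers h ∈ (cycP G p).filter (· < C) := by
        rw [Finset.mem_filter]
        exact ⟨mem_cycP_of_le hC hlt.le, hlt⟩
      simp [this, hlt]
    · have : zpowers h ∉ (cycP G p).filter (· < C) := by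
        rw [Finset.mem_filter]
        exact fun hh => hlt hh.2
      simp [this, hlt]
  rw [hsum]
  by_cases hmem : h ∈ C
  · have hle : zpowers h ≤ C := (zpowers_le).2 hmem
    by_cases heq : zpowers h = C
    · simp [heq, hmem]
    · have hlt : zpowers h < C := lt_of_le_of_ne hle heq
      simp [heq, hmem, hlt]
  · have hne : zpowers h ≠ C := fun heq => hmem (heq ▸ mem_zpowers h)
    have hnlt : ¬ zpowers h < C := fun hlt => hmem (hlt.le (mem_zpowers h))
    simp [hne, hmem, hnlt]

theorem eInd_mem_span (p : ℕ) : ∀ (n : ℕ) (C : Subgroup G), C ∈ cycP G p → Nat.card C = n →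
    eInd C ∈ Submodule.span ℤ (Set.range fun D : cycP G p => mInd (D : Subgroup G)) := by
  classical
  intro n
  induction n using Nat.strong_induction_on with
  | _ n ih =>
    intro C hC hn
    rw [eInd_eq p hC]
    refine Submodule.sub_mem _ (Submodule.subset_span ⟨⟨C, hC⟩, rfl⟩) ?_
    refine Submodule.sum_mem _ fun D hD => ?_
    rw [Finset.mem_filter] at hD
    refine ih (Nat.card D) ?_ D hD.1 rfl
    rw [← hn]
    exact card_lt_card_of_lt hD.2

theorem exists_coeff_indicator (p : ℕ) :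
    ∃ a : Subgroup G → ℤ, ∀ h : G, (orderOf h).Coprime p →
      ∑ D ∈ cycP G p, a D * mInd D h = 1 := by
  classical
  have hu : (∑ C ∈ cycP G p, eInd C) ∈
      Submodule.span ℤ (Set.range fun D : cycP G p => mInd (D : Subgroup G)) :=
    Submodule.sum_mem _ fun C hC => eInd_mem_span p _ C hC rfl
  rw [Submodule.mem_span_range_iff_exists_fun] at hu
  obtain ⟨c, hc⟩ := hu
  refine ⟨fun D => if hD : D ∈ cycP G p then c ⟨D, hD⟩ else 0, fun h hh => ?_⟩
  have h1 := congrFun hc h
  rw [Finset.sum_apply, Finset.sum_apply] at h1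
  have h2 : ∑ C ∈ cycP G p, eInd C h = 1 := by
    simp_rw [eInd_apply]
    rw [Finset.sum_ite_eq]
    simp [zpowers_mem_cycP hh]
  rw [h2] at h1
  rw [← h1, ← Finset.sum_coe_sort (cycP G p)]
  refine Finset.sum_congr rfl fun D _ => ?_
  simp [Pi.smul_apply]

/-! ### Counting fixed cosets -/

omit [Finite G] in
theorem orderOf_conj' (x g : G) : orderOf (x⁻¹ * g * x) = orderOf g := by
  have h : SemiconjBy x⁻¹ g (x⁻¹ * g * x) := by
    simp [SemiconjBy, mul_assoc]
  exact (h.orderOf_eq).symm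

omit [Finite G] in
theorem preimage_fixedBy (D : Subgroup G) (g : G) :
    ((↑) : G → G ⧸ D) ⁻¹' (MulAction.fixedBy (G ⧸ D) g) = {x : G | x⁻¹ * g * x ∈ D} := by
  ext x
  simp only [Set.mem_preimage, MulAction.mem_fixedBy, Set.mem_ofPred_eq]
  rw [MulAction.Quotient.smul_coe, QuotientGroup.eq, smul_eq_mul]
  rw [← inv_mem_iff (x := x⁻¹ * g * x)]
  simp [mul_assoc]

omit [Finite G] in
theorem card_mul_card_fixedBy (D : Subgroup G) (g : G) :
    Nat.card D * Nat.card (MulAction.fixedBy (G ⧸ D) g) =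
      Nat.card {x : G // x⁻¹ * g * x ∈ D} := by
  have e := QuotientGroup.preimageMkEquivSubgroupProdSet D (MulAction.fixedBy (G ⧸ D) g)
  rw [← Nat.card_prod, ← Nat.card_congr e, preimage_fixedBy]
  rfl

/-- **Artin's identity, `p`-regular form**: there are integers `c D`, indexed by the cyclic
subgroups of order prime to `p`, such that for every `g` of order prime to `p`
`∑ D, c D * #Fix_g(G ⧸ D) = #G`. -/
theorem exists_artin_coeff (p : ℕ) :
    ∃ c : Subgroup G → ℤ, ∀ g : G, (orderOf g).Coprime p →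
      ∑ D ∈ cycP G p, c D * (Nat.card (MulAction.fixedBy (G ⧸ D) g) : ℤ) = Nat.card G := by
  classical
  obtain ⟨a, ha⟩ := exists_coeff_indicator (G := G) p
  refine ⟨fun D => a D * Nat.card D, fun g hg => ?_⟩
  have hfin : Fintype G := Fintype.ofFinite G
  have key : ∀ D : Subgroup G,
      a D * (Nat.card D : ℤ) * (Nat.card (MulAction.fixedBy (G ⧸ D) g) : ℤ) =
        ∑ x : G, a D * mInd D (x⁻¹ * g * x) := by
    intro D
    rw [mul_assoc, ← Nat.cast_mul, card_mul_card_fixedBy, ← Finset.mul_sum]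
    congr 1
    rw [Nat.card_eq_fintype_card, Fintype.card_subtype]
    simp_rw [mInd_apply]
    rw [Finset.sum_boole]
  simp_rw [key]
  rw [Finset.sum_comm]
  have : ∀ x : G, ∑ D ∈ cycP G p, a D * mInd D (x⁻¹ * g * x) = 1 := by
    intro x
    apply ha
    rwa [orderOf_conj']
  simp_rw [this]
  simp [Nat.card_eq_fintype_card]

/-! ### Marks determine cyclic sets -/

open Function



section Marks

variable {A B : Type*} [Finite A] [Finite B]

theorem mem_periodicPts_perm (σ : Equiv.Perm A) (a : A) : a ∈ periodicPts σ := by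
  refine mk_mem_periodicPts (orderOf_pos σ) ?_
  show σ^[orderOf σ] a = a
  rw [Equiv.Perm.iterate_eq_pow, pow_orderOf_eq_one]; rfl

theorem minimalPeriod_pos_perm (σ : Equiv.Perm A) (a : A) : 0 < minimalPeriod σ a :=
  minimalPeriod_pos_of_mem_periodicPts (mem_periodicPts_perm σ a)

omit [Finite A] in
theorem pow_apply_eq_iff_dvd (σ : Equiv.Perm A) (j : ℕ) (a : A) :
    (σ ^ j) a = a ↔ minimalPeriod σ a ∣ j := by
  rw [← isPeriodicPt_iff_minimalPeriod_dvd, ← Equiv.Perm.iterate_eq_pow]; rfl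

omit [Finite B] in
/-- key transfer lemma: equal exponents modulo the common period -/
theorem pow_apply_eq_of_minimalPeriod_eq {σ : Equiv.Perm A} {τ : Equiv.Perm B} {x : A} {y : B}
    (h : minimalPeriod σ x = minimalPeriod τ y) {k k' : ℕ} (hk : (σ ^ k) x = (σ ^ k') x) :
    (τ ^ k) y = (τ ^ k') y := by
  have hpos := minimalPeriod_pos_perm σ x
  rw [← Equiv.Perm.iterate_eq_pow, ← Equiv.Perm.iterate_eq_pow] at hk ⊢
  rw [← iterate_mod_minimalPeriod_eq (n := k), ← iterate_mod_minimalPeriod_eq (n := k')] at hk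
  have hmod : k % minimalPeriod σ x = k' % minimalPeriod σ x :=
    iterate_injOn_Iio_minimalPeriod (Nat.mod_lt _ hpos) (Nat.mod_lt _ hpos) hk
  rw [← iterate_mod_minimalPeriod_eq (n := k), ← iterate_mod_minimalPeriod_eq (n := k'), ← h, hmod]

theorem minimalPeriod_eq_of_sameCycle {σ : Equiv.Perm A} {a b : A} (h : σ.SameCycle a b) :
    minimalPeriod σ a = minimalPeriod σ b := by
  obtain ⟨i, rfl⟩ := h.exists_nat_pow_eq
  rw [← Equiv.Perm.iterate_eq_pow]
  exact (minimalPeriod_apply_iterate (mem_periodicPts_perm σ a) i).symm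

/-- orbit space of a permutation -/
abbrev Orb (σ : Equiv.Perm A) : Type _ := Quotient (Equiv.Perm.SameCycle.setoid σ)

/-- size of an orbit -/
noncomputable def orbSize (σ : Equiv.Perm A) : Orb σ → ℕ :=
  Quotient.lift (fun a => minimalPeriod σ a) fun _ _ h => minimalPeriod_eq_of_sameCycle h

theorem orbSize_mk (σ : Equiv.Perm A) (a : A) :
    orbSize σ (Quotient.mk (Equiv.Perm.SameCycle.setoid σ) a) = minimalPeriod σ a := rfl

theorem minimalPeriod_out (σ : Equiv.Perm A) (o : Orb σ) :
    minimalPeriod σ o.out = orbSize σ o := by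
  conv_rhs => rw [← Quotient.out_eq o]
  rfl

theorem orbSize_pos (σ : Equiv.Perm A) (o : Orb σ) : 0 < orbSize σ o := by
  rw [← minimalPeriod_out]; exact minimalPeriod_pos_perm σ _

/-- number of points of exact period `l` -/
noncomputable def cnt (σ : Equiv.Perm A) (l : ℕ) : ℕ := Nat.card {a : A // minimalPeriod σ a = l}

theorem cnt_zero (σ : Equiv.Perm A) : cnt σ 0 = 0 := by
  have : IsEmpty {a : A // minimalPeriod σ a = 0} :=
    ⟨fun a => (minimalPeriod_pos_perm σ a.1).ne' a.2⟩
  exact Nat.card_of_isEmpty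

theorem card_fix_pow (σ : Equiv.Perm A) {j : ℕ} (hj : j ≠ 0) :
    Nat.card {a : A // (σ ^ j) a = a} = ∑ d ∈ j.divisors, cnt σ d := by
  classical
  have := Fintype.ofFinite A
  simp only [cnt, Nat.card_eq_fintype_card, Fintype.card_subtype]
  simp_rw [pow_apply_eq_iff_dvd]
  rw [Finset.card_eq_sum_card_fiberwise (f := fun a => minimalPeriod σ a) (t := j.divisors)]
  · refine Finset.sum_congr rfl fun d hd => ?_
    rw [Finset.filter_filter]
    congr 1
    ext a
    simp only [Finset.mem_filter, Finset.mem_univ, true_and]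
    constructor
    · exact fun h => h.2
    · intro h
      exact ⟨h ▸ (Nat.mem_divisors.1 hd).1, h⟩
  · intro a ha
    rw [Finset.mem_coe, Finset.mem_filter] at ha
    exact Finset.mem_coe.2 (Nat.mem_divisors.2 ⟨ha.2, hj⟩)

theorem cnt_eq_of_marks {σ : Equiv.Perm A} {τ : Equiv.Perm B}
    (h : ∀ j : ℕ, Nat.card {a : A // (σ ^ j) a = a} = Nat.card {b : B // (τ ^ j) b = b}) :
    ∀ l : ℕ, cnt σ l = cnt τ l := by
  intro l
  induction l using Nat.strong_induction_on with
  | _ l ih =>
    rcases Nat.eq_zero_or_pos l with rfl | hl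
    · rw [cnt_zero, cnt_zero]
    · have h1 := h l
      rw [card_fix_pow σ hl.ne', card_fix_pow τ hl.ne',
        ← Nat.cons_self_properDivisors hl.ne', Finset.sum_cons, Finset.sum_cons] at h1
      have h2 : ∑ d ∈ l.properDivisors, cnt σ d = ∑ d ∈ l.properDivisors, cnt τ d :=
        Finset.sum_congr rfl fun d hd => ih d (Nat.mem_properDivisors.1 hd).2
      omega

/-- points of period `l` = (orbits of size `l`) × `Fin l` -/
theorem cnt_eq_mul (σ : Equiv.Perm A) (l : ℕ) :
    cnt σ l = Nat.card {o : Orb σ // orbSize σ o = l} * l := by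
  classical
  let F : {o : Orb σ // orbSize σ o = l} × Fin l → {a : A // minimalPeriod σ a = l} :=
    fun x => ⟨(σ ^ (x.2 : ℕ)) x.1.1.out, by
      rw [← Equiv.Perm.iterate_eq_pow,
        minimalPeriod_apply_iterate (mem_periodicPts_perm σ _), minimalPeriod_out]
      exact x.1.2⟩
  have hF : Function.Bijective F := by
    constructor
    · rintro ⟨⟨o, ho⟩, i⟩ ⟨⟨o', ho'⟩, i'⟩ hx
      have hx' : (σ ^ (i : ℕ)) o.out = (σ ^ (i' : ℕ)) o'.out := congrArg Subtype.val hx
      have hoo : o = o' := by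
        rw [← Quotient.out_eq o, ← Quotient.out_eq o']
        apply Quotient.sound
        show σ.SameCycle o.out o'.out
        rw [← Equiv.Perm.sameCycle_pow_left (n := (i : ℕ)), hx',
          Equiv.Perm.sameCycle_pow_left]
      subst hoo
      have hii : (i : ℕ) = (i' : ℕ) := by
        rw [← Equiv.Perm.iterate_eq_pow, ← Equiv.Perm.iterate_eq_pow] at hx'
        refine iterate_injOn_Iio_minimalPeriod (f := σ) (x := o.out) ?_ ?_ hx'
        · rw [Set.mem_Iio, minimalPeriod_out, ho]; exact i.2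
        · rw [Set.mem_Iio, minimalPeriod_out, ho]; exact i'.2
      have : i = i' := Fin.ext hii
      subst this
      rfl
    · rintro ⟨a, ha⟩
      set o : Orb σ := Quotient.mk (Equiv.Perm.SameCycle.setoid σ) a with ho
      have hol : orbSize σ o = l := ha
      have hsc : σ.SameCycle o.out a := Quotient.exact (Quotient.out_eq o)
      obtain ⟨n, hn⟩ := hsc.exists_nat_pow_eq
      have hlpos : 0 < l := ha ▸ minimalPeriod_pos_perm σ a
      refine ⟨⟨⟨o, hol⟩, ⟨n % l, Nat.mod_lt _ hlpos⟩⟩, Subtype.ext ?_⟩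
      show (σ ^ (n % l)) o.out = a
      rw [← hn, ← Equiv.Perm.iterate_eq_pow, ← Equiv.Perm.iterate_eq_pow]
      have : minimalPeriod σ o.out = l := by rw [minimalPeriod_out, hol]
      rw [← this, iterate_mod_minimalPeriod_eq]
  rw [cnt, ← Nat.card_congr (Equiv.ofBijective F hF), Nat.card_prod, Nat.card_fin]

theorem card_orb_eq_of_marks {σ : Equiv.Perm A} {τ : Equiv.Perm B}
    (h : ∀ j : ℕ, Nat.card {a : A // (σ ^ j) a = a} = Nat.card {b : B // (τ ^ j) b = b})
    (l : ℕ) :
    Nat.card {o : Orb σ // orbSize σ o = l} = Nat.card {o : Orb τ // orbSize τ o = l} := by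
  rcases Nat.eq_zero_or_pos l with rfl | hl
  · have h1 : IsEmpty {o : Orb σ // orbSize σ o = 0} := ⟨fun o => (orbSize_pos σ o.1).ne' o.2⟩
    have h2 : IsEmpty {o : Orb τ // orbSize τ o = 0} := ⟨fun o => (orbSize_pos τ o.1).ne' o.2⟩
    rw [Nat.card_of_isEmpty, Nat.card_of_isEmpty]
  · have := cnt_eq_of_marks h l
    rw [cnt_eq_mul, cnt_eq_mul] at this
    exact Nat.eq_of_mul_eq_mul_right hl this

/-! ### The equivariant bijection -/

open Equiv.Perm in
theorem exists_pow_out (σ : Equiv.Perm A) (a : A) :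
    ∃ k : ℕ, (σ ^ k) (Quotient.mk (SameCycle.setoid σ) a).out = a :=
  (Quotient.mk_out (s := SameCycle.setoid σ) a : σ.SameCycle _ a).exists_nat_pow_eq

open Equiv.Perm in
/-- the map `A → B` attached to a map of orbit spaces -/
noncomputable def transfer (σ : Equiv.Perm A) (τ : Equiv.Perm B) (f : Orb σ → Orb τ) (a : A) : B :=
  (τ ^ (exists_pow_out σ a).choose) (f (Quotient.mk (SameCycle.setoid σ) a)).out

open Equiv.Perm in
theorem transfer_eq (σ : Equiv.Perm A) (τ : Equiv.Perm B) (f : Orb σ → Orb τ)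
    (hf : ∀ o, orbSize τ (f o) = orbSize σ o) (a : A) (k : ℕ)
    (hk : (σ ^ k) (Quotient.mk (SameCycle.setoid σ) a).out = a) :
    transfer σ τ f a = (τ ^ k) (f (Quotient.mk (SameCycle.setoid σ) a)).out := by
  unfold transfer
  apply pow_apply_eq_of_minimalPeriod_eq (σ := σ)
    (x := (Quotient.mk (SameCycle.setoid σ) a).out)
  · rw [minimalPeriod_out, minimalPeriod_out, hf]
  · rw [(exists_pow_out σ a).choose_spec, hk]

open Equiv.Perm in
theorem transfer_apply (σ : Equiv.Perm A) (τ : Equiv.Perm B) (f : Orb σ → Orb τ)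
    (hf : ∀ o, orbSize τ (f o) = orbSize σ o) (a : A) :
    transfer σ τ f (σ a) = τ (transfer σ τ f a) := by
  obtain ⟨k, hk⟩ := exists_pow_out σ a
  have hcls : Quotient.mk (SameCycle.setoid σ) (σ a) = Quotient.mk (SameCycle.setoid σ) a :=
    Quotient.sound (sameCycle_apply_left.2 (SameCycle.refl σ a))
  rw [transfer_eq σ τ f hf a k hk]
  have := transfer_eq σ τ f hf (σ a) (k + 1)
    (by rw [hcls, pow_succ', Equiv.Perm.mul_apply, hk])
  rw [this, hcls, pow_succ', Equiv.Perm.mul_apply]

open Equiv.Perm in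
theorem mk_transfer (σ : Equiv.Perm A) (τ : Equiv.Perm B) (f : Orb σ → Orb τ)
    (hf : ∀ o, orbSize τ (f o) = orbSize σ o) (a : A) :
    Quotient.mk (SameCycle.setoid τ) (transfer σ τ f a) =
      f (Quotient.mk (SameCycle.setoid σ) a) := by
  obtain ⟨k, hk⟩ := exists_pow_out σ a
  rw [transfer_eq σ τ f hf a k hk]
  conv_rhs => rw [← Quotient.out_eq (f _)]
  apply Quotient.sound
  show τ.SameCycle ((τ ^ k) _) _
  rw [sameCycle_pow_left]

open Equiv.Perm in
theorem transfer_transfer (σ : Equiv.Perm A) (τ : Equiv.Perm B) (f : Orb σ ≃ Orb τ)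
    (hf : ∀ o, orbSize τ (f o) = orbSize σ o) (a : A) :
    transfer τ σ f.symm (transfer σ τ f a) = a := by
  obtain ⟨k, hk⟩ := exists_pow_out σ a
  have h1 := transfer_eq σ τ f hf a k hk
  have hcls := mk_transfer σ τ f hf a
  have hf' : ∀ o, orbSize σ (f.symm o) = orbSize τ o := fun o => by
    rw [← hf, Equiv.apply_symm_apply]
  have := transfer_eq τ σ f.symm hf' (transfer σ τ f a) k (by rw [hcls, ← h1])
  rw [this, hcls, Equiv.symm_apply_apply, hk]

/-- **Marks determine cyclic sets**: two permutations of finite sets all of whose powers have the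
same number of fixed points are conjugate by a bijection. -/
theorem exists_equiv_of_marks (σ : Equiv.Perm A) (τ : Equiv.Perm B)
    (h : ∀ j : ℕ, Nat.card {a : A // (σ ^ j) a = a} = Nat.card {b : B // (τ ^ j) b = b}) :
    ∃ e : A ≃ B, ∀ a, e (σ a) = τ (e a) := by
  have hfib : ∀ l, Nonempty ({o : Orb σ // orbSize σ o = l} ≃ {o : Orb τ // orbSize τ o = l}) :=
    fun l => Finite.card_eq.1 (card_orb_eq_of_marks h l)
  let f : Orb σ ≃ Orb τ := Equiv.ofFiberEquiv (fun l => (hfib l).some)
  have hf : ∀ o, orbSize τ (f o) = orbSize σ o := Equiv.ofFiberEquiv_map _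
  have hf' : ∀ o, orbSize σ (f.symm o) = orbSize τ o := fun o => by
    rw [← hf, Equiv.apply_symm_apply]
  refine ⟨⟨transfer σ τ f, transfer τ σ f.symm, transfer_transfer σ τ f hf, ?_⟩,
    transfer_apply σ τ f hf⟩
  intro b
  have := transfer_transfer τ σ f.symm hf' b
  rwa [Equiv.symm_symm] at this

end Marks


/-! ### Fixed points in sums -/


section FixedCounting

variable {M : Type*}

theorem card_fixed_sigma {ι : Type*} [Fintype ι] {Z : ι → Type*} [∀ i, Finite (Z i)]
    [∀ i, SMul M (Z i)] (h : M) :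
    Nat.card {x : Σ i, Z i // h • x = x} = ∑ i, Nat.card {z : Z i // h • z = z} := by
  rw [← Nat.card_sigma]
  refine Nat.card_congr ⟨fun x => ⟨x.1.1, ⟨x.1.2, ?_⟩⟩, fun y => ⟨⟨y.1, y.2.1⟩, ?_⟩, ?_, ?_⟩
  · have := x.2
    rcases x with ⟨⟨i, z⟩, hx⟩
    simpa [Sigma.smul_mk] using hx
  · rcases y with ⟨i, z, hz⟩
    simp [Sigma.smul_mk, hz]
  · rintro ⟨⟨i, z⟩, hx⟩; rfl
  · rintro ⟨i, z, hz⟩; rfl

theorem card_fixed_sum {P Q : Type*} [Finite P] [Finite Q] [SMul M P] [SMul M Q] (h : M) :
    Nat.card {y : P ⊕ Q // h • y = y} =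
      Nat.card {x : P // h • x = x} + Nat.card {x : Q // h • x = x} := by
  rw [← Nat.card_sum]
  refine Nat.card_congr ⟨fun y => ?_, fun y => ?_, ?_, ?_⟩
  · rcases y with ⟨x | x, hy⟩
    · exact Sum.inl ⟨x, by simpa [Sum.smul_def] using hy⟩
    · exact Sum.inr ⟨x, by simpa [Sum.smul_def] using hy⟩
  · rcases y with ⟨x, hx⟩ | ⟨x, hx⟩
    · exact ⟨Sum.inl x, by simp [Sum.smul_def, hx]⟩
    · exact ⟨Sum.inr x, by simp [Sum.smul_def, hx]⟩
  · rintro ⟨x | x, hy⟩ <;> rfl
  · rintro (⟨x, hx⟩ | ⟨x, hx⟩) <;> rfl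

end FixedCounting


/-! ### The export: Artin's identity as an equivariant bijection of `G`-sets -/

section ArtinSets

universe u

theorem card_fixed_quot_top {G : Type*} [Group G] (h : G) :
    Nat.card {z : G ⧸ (⊤ : Subgroup G) // h • z = z} = 1 := by
  have hs : Subsingleton (G ⧸ (⊤ : Subgroup G)) := QuotientGroup.subsingleton_quotient_top
  have : Unique {z : G ⧸ (⊤ : Subgroup G) // h • z = z} :=
    { default := ⟨((1 : G) : G ⧸ (⊤ : Subgroup G)), Subsingleton.elim _ _⟩
      uniq := fun z => Subtype.ext (Subsingleton.elim _ _) }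
  exact Nat.card_unique

theorem toPerm_pow_apply {G X : Type*} [Group G] [MulAction G X] (g : G) (j : ℕ) (x : X) :
    ((MulAction.toPerm g : Equiv.Perm X) ^ j) x = g ^ j • x := by
  have : (MulAction.toPerm g : Equiv.Perm X) ^ j = MulAction.toPerm (g ^ j) := by
    rw [← MulAction.toPermHom_apply, ← map_pow]; rfl
  rw [this]; rfl

/-- **Artin's identity as an equivariant bijection.**  There are two finite families `Dp`, `Dn`
of cyclic subgroups of order prime to `p` such that for every `g` of order prime to `p` the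
`G`-sets `∐ G ⧸ Dp i` and `(#G points) ⊔ ∐ G ⧸ Dn i` are isomorphic as `⟨g⟩`-sets. -/
theorem exists_artin_sets (G : Type u) [Group G] [Finite G] (p : ℕ) :
    ∃ (ιp ιn : Type u) (_ : Fintype ιp) (_ : Fintype ιn)
      (Dp : ιp → Subgroup G) (Dn : ιn → Subgroup G),
      (∀ i, IsCyclic (Dp i) ∧ (Nat.card (Dp i)).Coprime p) ∧
      (∀ i, IsCyclic (Dn i) ∧ (Nat.card (Dn i)).Coprime p) ∧
      ∀ g : G, (orderOf g).Coprime p →
        ∃ e : (Σ i, G ⧸ Dp i) ≃
            ((Σ _ : Fin (Nat.card G), G ⧸ (⊤ : Subgroup G)) ⊕ (Σ i, G ⧸ Dn i)),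
          ∀ a, e (g • a) = g • e a := by
  obtain ⟨c, hc⟩ := exists_artin_coeff (G := G) p
  refine ⟨Σ D : cycP G p, Fin (c D).toNat, Σ D : cycP G p, Fin (-c D).toNat,
    inferInstance, inferInstance, fun i => i.1.1, fun i => i.1.1,
    fun i => mem_cycP.1 i.1.2, fun i => mem_cycP.1 i.1.2, ?_⟩
  intro g hg
  suffices hmarks : ∀ j : ℕ,
      Nat.card {a : (Σ i : (Σ D : cycP G p, Fin (c D).toNat), G ⧸ (i.1.1 : Subgroup G)) //
        ((MulAction.toPerm g : Equiv.Perm _) ^ j) a = a} =
      Nat.card {b : ((Σ _ : Fin (Nat.card G), G ⧸ (⊤ : Subgroup G)) ⊕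
        (Σ i : (Σ D : cycP G p, Fin (-c D).toNat), G ⧸ (i.1.1 : Subgroup G))) //
        ((MulAction.toPerm g : Equiv.Perm _) ^ j) b = b} by
    obtain ⟨e, he⟩ := exists_equiv_of_marks _ _ hmarks
    exact ⟨e, he⟩
  intro j
  simp_rw [toPerm_pow_apply]
  rw [card_fixed_sigma, card_fixed_sum, card_fixed_sigma, card_fixed_sigma]
  simp_rw [card_fixed_quot_top]
  rw [Fintype.sum_sigma, Fintype.sum_sigma]
  show (∑ x : cycP G p, ∑ _y : Fin (c x).toNat,
        Nat.card {z : G ⧸ (x : Subgroup G) // g ^ j • z = z}) =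
      (∑ _x : Fin (Nat.card G), 1) + ∑ x : cycP G p, ∑ _y : Fin (-c x).toNat,
        Nat.card {z : G ⧸ (x : Subgroup G) // g ^ j • z = z}
  simp only [Finset.sum_const, Finset.card_univ, Fintype.card_fin, smul_eq_mul, mul_one]
  -- Artin's identity at `g ^ j`
  have hgj : (orderOf (g ^ j)).Coprime p :=
    Nat.Coprime.coprime_dvd_left (orderOf_pow_dvd j) hg
  have hid := hc (g ^ j) hgj
  rw [← Finset.sum_coe_sort (cycP G p)] at hid
  have hF : ∀ D : Subgroup G, Nat.card (MulAction.fixedBy (G ⧸ D) (g ^ j)) =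
      Nat.card {z : G ⧸ D // g ^ j • z = z} := fun D => rfl
  simp_rw [hF] at hid
  have key : ((∑ D : cycP G p, (c D).toNat * Nat.card {z : G ⧸ (D : Subgroup G) // g ^ j • z = z} : ℕ) : ℤ)
      = ((Nat.card G + ∑ D : cycP G p,
          (-c D).toNat * Nat.card {z : G ⧸ (D : Subgroup G) // g ^ j • z = z} : ℕ) : ℤ) := by
    push_cast
    rw [← hid, ← Finset.sum_add_distrib]
    refine Finset.sum_congr rfl fun D _ => ?_
    have := Int.toNat_sub_toNat_neg (c D)
    linear_combination ((Nat.card {z : G ⧸ (D : Subgroup G) // g ^ j • z = z} : ℤ)) * this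
  exact_mod_cast key

end ArtinSets

end Fermat.Agent.Lib.ModRep.ArtinPerm
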