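/-
P-S56, block (B), leaf `Lib/ModRep` (owner of the directory: helper66).  This file (helper14) =
(AP2'): two permutations of finite types whose powers have the same numbers of fixed points are
conjugate by a bijection:

  `(∀ j, card (fixed points of s ^ j) = card (fixed points of t ^ j)) → ∃ e : A ≃ B, e ∘ s = t ∘ e`.

Proof: the fixed-point counts of the powers determine the cycle type
(`#Fix(σ ^ j) = #(unsupported points) + ∑_{c ∈ cycleType σ, c ∣ j} c`, strong induction on the cycle
length), and permutations with the same cycle type are conjugate.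
-/
import Mathlib

set_option autoImplicit false

open Equiv Finset

namespace Fermat.Agent.Lib.ModRep

section OneType

variable {α : Type*} [Fintype α] [DecidableEq α]

/-- number of points of the support fixed by `σ ^ j` -/
def fixSupp (σ : Perm α) (j : ℕ) : ℕ := #(σ.support.filter fun a => (σ ^ j) a = a)

/-- the cycle-type expression for it -/
def ctSum (m : Multiset ℕ) (j : ℕ) : ℕ := (m.map fun c => if c ∣ j then c else 0).sum

theorem ctSum_add (m m' : Multiset ℕ) (j : ℕ) : ctSum (m + m') j = ctSum m j + ctSum m' j := by
  simp [ctSum]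

theorem fixSupp_eq_ctSum (σ : Perm α) (j : ℕ) : fixSupp σ j = ctSum σ.cycleType j := by
  refine Equiv.Perm.cycle_induction_on (P := fun σ => fixSupp σ j = ctSum σ.cycleType j) σ ?_ ?_ ?_
  · simp [fixSupp, ctSum]
  · intro σ hσ
    rw [hσ.cycleType]
    simp only [fixSupp, ctSum, Multiset.map_singleton, Multiset.sum_singleton]
    have key : ∀ a ∈ σ.support, ((σ ^ j) a = a ↔ #σ.support ∣ j) := by
      intro a ha
      rw [← hσ.orderOf, orderOf_dvd_iff_pow_eq_one]
      exact (hσ.pow_eq_one_iff' (Perm.mem_support.mp ha)).symm
    split_ifs with hdiv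
    · rw [Finset.filter_true_of_mem (fun a ha => (key a ha).mpr hdiv)]
    · rw [Finset.filter_false_of_mem (fun a ha => fun h => hdiv ((key a ha).mp h))]
      simp
  · intro σ τ hd _ ihσ ihτ
    rw [hd.cycleType_mul, ctSum_add, ← ihσ, ← ihτ]
    simp only [fixSupp]
    rw [hd.support_mul, Finset.filter_union,
      Finset.card_union_of_disjoint
        (Finset.disjoint_filter_filter hd.disjoint_support)]
    have hpow : (σ * τ) ^ j = σ ^ j * τ ^ j := hd.commute.mul_pow j
    congr 1
    · refine congrArg Finset.card (Finset.filter_congr fun a ha => ?_)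
      have hτa : τ a = a := (hd a).resolve_left (Perm.mem_support.mp ha)
      rw [hpow, Perm.mul_apply, Perm.pow_apply_eq_self_of_apply_eq_self hτa]
    · refine congrArg Finset.card (Finset.filter_congr fun a ha => ?_)
      have hmem : (τ ^ j) a ∈ τ.support := Perm.pow_apply_mem_support.mpr ha
      have hσa : σ ((τ ^ j) a) = (τ ^ j) a :=
        (hd _).resolve_right (Perm.mem_support.mp hmem)
      rw [hpow, Perm.mul_apply, Perm.pow_apply_eq_self_of_apply_eq_self hσa]

/-- total number of fixed points of `σ ^ j` -/
theorem card_fixed_pow (σ : Perm α) (j : ℕ) :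
    Fintype.card {a // (σ ^ j) a = a} + #σ.support
      = Fintype.card α + ctSum σ.cycleType j := by
  rw [← fixSupp_eq_ctSum, Fintype.card_subtype, fixSupp]
  have h1 : (univ.filter fun a => (σ ^ j) a = a)
      = σ.supportᶜ ∪ σ.support.filter fun a => (σ ^ j) a = a := by
    ext a
    simp only [mem_filter, mem_univ, true_and, mem_union, mem_compl, Perm.mem_support, not_not]
    constructor
    · intro h
      by_cases ha : σ a = a
      · exact Or.inl ha
      · exact Or.inr ⟨ha, h⟩
    · rintro (h | h)
      · exact Perm.pow_apply_eq_self_of_apply_eq_self h j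
      · exact h.2
  rw [h1, Finset.card_union_of_disjoint, Finset.card_compl]
  · have := Finset.card_le_univ σ.support
    omega
  · exact Finset.disjoint_of_subset_right (Finset.filter_subset _ _) disjoint_compl_left

end OneType

/-- divisor-sum form of `ctSum` -/
theorem ctSum_eq_sum_divisors (m : Multiset ℕ) {j : ℕ} (hj : j ≠ 0) :
    ctSum m j = ∑ c ∈ j.divisors, c * m.count c := by
  induction m using Multiset.induction_on with
  | empty => simp [ctSum]
  | cons a m ih =>
    have hcons : ctSum (a ::ₘ m) j = (if a ∣ j then a else 0) + ctSum m j := by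
      simp [ctSum]
    rw [hcons, ih]
    simp only [Multiset.count_cons, mul_add, Finset.sum_add_distrib]
    rw [add_comm]
    congr 1
    simp only [mul_ite, mul_one, mul_zero]
    rw [Finset.sum_ite_eq' j.divisors a (fun c => c)]
    simp [Nat.mem_divisors, hj]

/-- the numbers `ctSum m j` determine a multiset of positive integers -/
theorem eq_of_ctSum_eq {m m' : Multiset ℕ} (h0 : 0 ∉ m) (h0' : 0 ∉ m')
    (h : ∀ j, j ≠ 0 → ctSum m j = ctSum m' j) : m = m' := by
  ext l
  induction l using Nat.strong_induction_on with
  | _ l ih =>
    rcases Nat.eq_zero_or_pos l with rfl | hl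
    · rw [Multiset.count_eq_zero_of_notMem h0, Multiset.count_eq_zero_of_notMem h0']
    · have hl0 : l ≠ 0 := hl.ne'
      have h1 := h l hl0
      rw [ctSum_eq_sum_divisors m hl0, ctSum_eq_sum_divisors m' hl0,
        ← Finset.insert_erase (Nat.mem_divisors_self l hl0),
        Finset.sum_insert (Finset.notMem_erase _ _),
        Finset.sum_insert (Finset.notMem_erase _ _)] at h1
      have h2 : ∑ c ∈ l.divisors.erase l, c * m.count c
          = ∑ c ∈ l.divisors.erase l, c * m'.count c := by
        refine Finset.sum_congr rfl fun c hc => ?_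
        have hc' := Finset.mem_erase.mp hc
        have hlt : c < l := lt_of_le_of_ne (Nat.divisor_le hc'.2) hc'.1
        rw [ih c hlt]
      rw [h2] at h1
      exact Nat.eq_of_mul_eq_mul_left hl (Nat.add_right_cancel h1)

section OneType'

variable {α : Type*} [Fintype α] [DecidableEq α]

/-- permutations of one finite type whose powers have the same numbers of fixed points have the
same cycle type. -/
theorem cycleType_eq_of_card_fixed_pow {σ τ : Perm α}
    (h : ∀ j : ℕ, Fintype.card {a // (σ ^ j) a = a} = Fintype.card {a // (τ ^ j) a = a}) :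
    σ.cycleType = τ.cycleType := by
  have h0σ : 0 ∉ σ.cycleType := fun h0 => by
    have := Perm.two_le_of_mem_cycleType h0; omega
  have h0τ : 0 ∉ τ.cycleType := fun h0 => by
    have := Perm.two_le_of_mem_cycleType h0; omega
  -- `j = 1`: the supports have the same cardinality
  have hone : ∀ ρ : Perm α, ctSum ρ.cycleType 1 = 0 := by
    intro ρ
    simp only [ctSum, Nat.dvd_one]
    refine Multiset.sum_eq_zero ?_
    intro x hx
    obtain ⟨c, hc, rfl⟩ := Multiset.mem_map.mp hx
    have := Perm.two_le_of_mem_cycleType hc
    rw [if_neg (by omega)]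
  have hsupp : #σ.support = #τ.support := by
    have e1 := card_fixed_pow σ 1
    have e2 := card_fixed_pow τ 1
    rw [hone] at e1 e2
    have := h 1
    omega
  refine eq_of_ctSum_eq h0σ h0τ fun j _ => ?_
  have e1 := card_fixed_pow σ j
  have e2 := card_fixed_pow τ j
  have := h j
  omega

end OneType'

/-- **(AP2')** two permutations of finite types whose powers have the same numbers of fixed
points are conjugate by a bijection. -/
theorem exists_equivariant_equiv {A B : Type*} [Fintype A] [Fintype B] [DecidableEq A]
    [DecidableEq B] (s : Perm A) (t : Perm B)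
    (h : ∀ j : ℕ, Fintype.card {a // (s ^ j) a = a} = Fintype.card {b // (t ^ j) b = b}) :
    ∃ e : A ≃ B, ∀ a, e (s a) = t (e a) := by
  -- `j = 0` : the cardinalities agree
  have hcard : Fintype.card A = Fintype.card B := by
    have := h 0
    simpa using this
  obtain ⟨e₀⟩ : Nonempty (A ≃ B) := Fintype.card_eq.mp hcard
  -- transport `t` to `A`
  let t' : Perm A := (e₀.trans t).trans e₀.symm
  have ht'pow : ∀ j : ℕ, ∀ a, (t' ^ j) a = e₀.symm ((t ^ j) (e₀ a)) := by
    intro j
    induction j with
    | zero => intro a; simp
    | succ n ih =>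
      intro a
      rw [pow_succ', Perm.mul_apply, ih, pow_succ', Perm.mul_apply]
      simp [t']
  have hfix : ∀ j : ℕ, Fintype.card {a // (t' ^ j) a = a} = Fintype.card {b // (t ^ j) b = b} := by
    intro j
    refine Fintype.card_congr (e₀.subtypeEquiv fun a => ?_)
    rw [ht'pow j a]
    constructor
    · intro h1
      have := congrArg e₀ h1
      simpa using this
    · intro h1
      rw [h1]; simp
  have hct : s.cycleType = t'.cycleType :=
    cycleType_eq_of_card_fixed_pow fun j => (h j).trans (hfix j).symm
  obtain ⟨π, hπ⟩ := isConj_iff.mp (Perm.isConj_iff_cycleType_eq.mpr hct)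
  -- `π * s * π⁻¹ = t'`
  refine ⟨π.trans e₀, fun a => ?_⟩
  have h1 : π (s a) = t' (π a) := by
    have := congrArg (fun ρ : Perm A => ρ (π a)) hπ
    simpa using this
  simp only [Equiv.trans_apply, h1]
  simp [t']

end Fermat.Agent.Lib.ModRep
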