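/-
P-S56, block (B), leaf `Lib/ModRep` (owner of the directory: helper66).  This file (helper14) =
(AP3'), the export consumed by the induction theorem: **Artin's identity as an equivariant
bijection of `G`-sets**.  There are two finite families `Dp`, `Dn` of cyclic subgroups of order
prime to `p` such that for every `g : G` of order prime to `p` the `⟨g⟩`-sets

  `Σ i, G ⧸ Dp i`     and     `(card G points) ⊕ Σ i, G ⧸ Dn i`

are isomorphic (the points are encoded as copies of `G ⧸ ⊤`).
-/
import Fermat.Agent.Lib.ModRep.ArtinIdentity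
import Fermat.Agent.Lib.ModRep.PermConj

set_option autoImplicit false

open Finset

namespace Fermat.Agent.Lib.ModRep

section Fixed

variable {G : Type*} [Group G]

/-- fixed points on a sigma type -/
theorem card_fixedBy_sigma {ι : Type*} [Fintype ι] (X : ι → Type*) [∀ i, MulAction G (X i)]
    [∀ i, Finite (X i)] (h : G) :
    Nat.card {a : Σ i, X i // h • a = a} = ∑ i, Nat.card {x : X i // h • x = x} := by
  classical
  have e : {a : Σ i, X i // h • a = a} ≃ Σ i, {x : X i // h • x = x} :=
    { toFun := fun a => ⟨a.1.1, ⟨a.1.2, by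
        have := a.2
        rcases a with ⟨⟨i, x⟩, ha⟩
        simpa [Sigma.smul_mk] using ha⟩⟩
      invFun := fun b => ⟨⟨b.1, b.2.1⟩, by
        rcases b with ⟨i, x, hx⟩
        simp [Sigma.smul_mk, hx]⟩
      left_inv := fun a => by rcases a with ⟨⟨i, x⟩, ha⟩; rfl
      right_inv := fun b => by rcases b with ⟨i, x, hx⟩; rfl }
  rw [Nat.card_congr e, Nat.card_sigma]

/-- fixed points on a sum type -/
theorem card_fixedBy_sum (X Y : Type*) [MulAction G X] [MulAction G Y] [Finite X] [Finite Y]
    (h : G) :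
    Nat.card {a : X ⊕ Y // h • a = a}
      = Nat.card {x : X // h • x = x} + Nat.card {y : Y // h • y = y} := by
  classical
  have e : {a : X ⊕ Y // h • a = a} ≃ {x : X // h • x = x} ⊕ {y : Y // h • y = y} :=
    { toFun := fun a => match a with
        | ⟨Sum.inl x, ha⟩ => Sum.inl ⟨x, by simpa [Sum.smul_inl] using ha⟩
        | ⟨Sum.inr y, ha⟩ => Sum.inr ⟨y, by simpa [Sum.smul_inr] using ha⟩
      invFun := fun b => match b with
        | Sum.inl x => ⟨Sum.inl x.1, by simp [Sum.smul_inl, x.2]⟩
        | Sum.inr y => ⟨Sum.inr y.1, by simp [Sum.smul_inr, y.2]⟩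
      left_inv := fun a => by rcases a with ⟨x | y, ha⟩ <;> rfl
      right_inv := fun b => by rcases b with x | y <;> rfl }
  rw [Nat.card_congr e, Nat.card_sum]

/-- the one-point `G`-set `G ⧸ ⊤` -/
theorem card_fixedBy_top (h : G) :
    Nat.card {x : G ⧸ (⊤ : Subgroup G) // h • x = x} = 1 := by
  haveI : Subsingleton (G ⧸ (⊤ : Subgroup G)) := QuotientGroup.subsingleton_quotient_top
  haveI : Unique {x : G ⧸ (⊤ : Subgroup G) // h • x = x} :=
    { default := ⟨QuotientGroup.mk 1, Subsingleton.elim _ _⟩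
      uniq := fun a => Subtype.ext (Subsingleton.elim _ _) }
  exact Nat.card_unique

end Fixed

variable {G : Type*} [Group G] [Finite G]

/-- **(AP3') Artin's identity as an equivariant bijection.** -/
theorem exists_artin_sets (p : ℕ) :
    ∃ (ιp ιn : Type) (_ : Fintype ιp) (_ : Fintype ιn) (Dp : ιp → Subgroup G)
      (Dn : ιn → Subgroup G),
      (∀ i, IsCyclic (Dp i) ∧ (Nat.card (Dp i)).Coprime p) ∧
      (∀ i, IsCyclic (Dn i) ∧ (Nat.card (Dn i)).Coprime p) ∧
      ∀ g : G, (orderOf g).Coprime p →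
        ∃ e : (Σ i, G ⧸ Dp i) ≃
            ((Σ _ : Fin (Nat.card G), G ⧸ (⊤ : Subgroup G)) ⊕ (Σ i, G ⧸ Dn i)),
          ∀ a, e (g • a) = g • e a := by
  classical
  -- the coefficients
  let sC : Finset (Subgroup G) := univ.filter fun D : Subgroup G => IsCycReg p D
  have hsC : ∀ D : sC, IsCycReg p D.1 := fun D => (Finset.mem_filter.mp D.2).2
  let a : sC → ℤ := fun D => artinAlpha p D.1 * (Nat.card D.1 : ℤ)
  have hA : ∀ h : G, (orderOf h).Coprime p →
      ∑ D : sC, a D * (Nat.card {x : G ⧸ D.1 // h • x = x} : ℤ) = Nat.card G := by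
    intro h hh
    have := artin_fixedBy p hh
    rw [← this, ← Finset.sum_coe_sort sC]
    exact Finset.sum_congr rfl (fun D _ => rfl)
  -- a finite index type has to live in `Type`: use `Fin`
  obtain ⟨n, ⟨e𝒞⟩⟩ : ∃ n : ℕ, Nonempty (sC ≃ Fin n) :=
    ⟨Fintype.card sC, ⟨Fintype.equivFin sC⟩⟩
  let Dof : Fin n → Subgroup G := fun k => (e𝒞.symm k).1
  let ak : Fin n → ℤ := fun k => a (e𝒞.symm k)
  have hAk : ∀ h : G, (orderOf h).Coprime p →
      ∑ k : Fin n, ak k * (Nat.card {x : G ⧸ Dof k // h • x = x} : ℤ) = Nat.card G := by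
    intro h hh
    rw [← hA h hh]
    exact Fintype.sum_equiv e𝒞.symm _ _ (fun k => rfl)
  refine ⟨Σ k : Fin n, Fin (ak k).toNat, Σ k : Fin n, Fin (-ak k).toNat, inferInstance,
    inferInstance, fun i => Dof i.1, fun i => Dof i.1, fun i => hsC (e𝒞.symm i.1),
    fun i => hsC (e𝒞.symm i.1), ?_⟩
  intro g hg
  -- the two `G`-sets
  set A := Σ i : (Σ k : Fin n, Fin (ak k).toNat), G ⧸ Dof i.1 with hAdef
  set B := (Σ _ : Fin (Nat.card G), G ⧸ (⊤ : Subgroup G)) ⊕
    (Σ i : (Σ k : Fin n, Fin (-ak k).toNat), G ⧸ Dof i.1) with hBdef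
  haveI : Fintype G := Fintype.ofFinite G
  haveI : ∀ D : Subgroup G, Fintype (G ⧸ D) := fun D => Fintype.ofFinite _
  haveI : Fintype A := inferInstance
  haveI : Fintype B := inferInstance
  -- fixed point counts
  have hfix : ∀ h : G, (orderOf h).Coprime p →
      Nat.card {x : A // h • x = x} = Nat.card {x : B // h • x = x} := by
    intro h hh
    have hAcount : Nat.card {x : A // h • x = x}
        = ∑ k : Fin n, (ak k).toNat * Nat.card {x : G ⧸ Dof k // h • x = x} := by
      rw [card_fixedBy_sigma (fun i : (Σ k : Fin n, Fin (ak k).toNat) => G ⧸ Dof i.1) h,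
        Fintype.sum_sigma]
      refine Finset.sum_congr rfl fun k _ => ?_
      show ∑ _y : Fin (ak k).toNat, Nat.card {x : G ⧸ Dof k // h • x = x} = _
      rw [Finset.sum_const, Finset.card_univ, Fintype.card_fin, smul_eq_mul]
    have hBcount : Nat.card {x : B // h • x = x}
        = Nat.card G +
          ∑ k : Fin n, (-ak k).toNat * Nat.card {x : G ⧸ Dof k // h • x = x} := by
      rw [card_fixedBy_sum, card_fixedBy_sigma (fun _ : Fin (Nat.card G) => G ⧸ (⊤ : Subgroup G)) h,
        card_fixedBy_sigma (fun i : (Σ k : Fin n, Fin (-ak k).toNat) => G ⧸ Dof i.1) h,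
        Fintype.sum_sigma]
      congr 1
      · rw [Finset.sum_congr rfl (fun _ _ => card_fixedBy_top h), Finset.sum_const,
          Finset.card_univ, Fintype.card_fin, smul_eq_mul, mul_one]
      · refine Finset.sum_congr rfl fun k _ => ?_
        show ∑ _y : Fin (-ak k).toNat, Nat.card {x : G ⧸ Dof k // h • x = x} = _
        rw [Finset.sum_const, Finset.card_univ, Fintype.card_fin, smul_eq_mul]
    have hmain := hAk h hh
    have hdiff : ∀ z : ℤ, (z.toNat : ℤ) - ((-z).toNat : ℤ) = z := fun z => by omega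
    have : (Nat.card {x : A // h • x = x} : ℤ) = Nat.card {x : B // h • x = x} := by
      rw [hAcount, hBcount]
      push_cast
      rw [← hmain, ← Finset.sum_add_distrib]
      refine Finset.sum_congr rfl fun k _ => ?_
      have := hdiff (ak k)
      linear_combination (Nat.card {x : G ⧸ Dof k // h • x = x} : ℤ) * this
    exact_mod_cast this
  -- apply (AP2')
  obtain ⟨e, he⟩ := exists_equivariant_equiv (MulAction.toPerm g : Equiv.Perm A)
    (MulAction.toPerm g : Equiv.Perm B) (fun j => by
      have hj : (orderOf (g ^ j)).Coprime p :=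
        Nat.Coprime.coprime_dvd_left (orderOf_pow_dvd j) hg
      have h1 := hfix (g ^ j) hj
      simp only [Nat.card_eq_fintype_card] at h1
      have hpA : ∀ x : A, ((MulAction.toPerm g : Equiv.Perm A) ^ j) x = (g ^ j) • x := by
        intro x
        rw [← MulAction.toPermHom_apply, ← map_pow]
        rfl
      have hpB : ∀ x : B, ((MulAction.toPerm g : Equiv.Perm B) ^ j) x = (g ^ j) • x := by
        intro x
        rw [← MulAction.toPermHom_apply, ← map_pow]
        rfl
      simp only [hpA, hpB]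
      convert h1)
  exact ⟨e, fun x => he x⟩

end Fermat.Agent.Lib.ModRep
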