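/-
helper66 (P-S56, block (B) leaf): modular representation theory, part 1.

Finite dimensional representations of a group `G` over a field `K` (bundled, `FRep`), additive
invariants, simple representations, and "families of composition factors" encoded through
additive invariants (no filtrations needed).
-/
import Mathlib

set_option autoImplicit false

namespace Fermat.Agent.Lib.ModRep

/-- A finite dimensional representation (bundled). -/
structure FRep (K : Type) [Field K] (G : Type) [Group G] where
  /-- the carrier -/
  V : Type
  [acg : AddCommGroup V]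
  [mod : Module K V]
  [fin : Module.Finite K V]
  /-- the action -/
  ρ : Representation K G V

attribute [instance] FRep.acg FRep.mod FRep.fin

variable {K : Type} [Field K] {G : Type} [Group G]

/-- A subspace of a representation is invariant. -/
def Inv (X : FRep K G) (U : Submodule K X.V) : Prop := ∀ g, U ≤ U.comap (X.ρ g)

theorem inv_bot (X : FRep K G) : Inv X ⊥ := fun g x hx => by
  rw [Submodule.mem_bot] at hx
  rw [Submodule.mem_comap, hx, map_zero]
  exact Submodule.zero_mem _

theorem inv_top (X : FRep K G) : Inv X ⊤ := fun _ _ _ => Submodule.mem_top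

/-- The subrepresentation on an invariant subspace. -/
abbrev FRep.sub (X : FRep K G) (U : Submodule K X.V) (hU : Inv X U) : FRep K G :=
  ⟨U, X.ρ.subrepresentation U hU⟩

/-- The quotient representation by an invariant subspace. -/
abbrev FRep.quot (X : FRep K G) (U : Submodule K X.V) (hU : Inv X U) : FRep K G :=
  ⟨X.V ⧸ U, X.ρ.quotient U hU⟩

@[simp] theorem FRep.sub_ρ_apply (X : FRep K G) (U : Submodule K X.V) (hU : Inv X U) (g : G)
    (u : U) : (((X.sub U hU).ρ g u : U) : X.V) = X.ρ g u := rfl

@[simp] theorem FRep.quot_ρ_mk (X : FRep K G) (U : Submodule K X.V) (hU : Inv X U) (g : G)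
    (x : X.V) : (X.quot U hU).ρ g (Submodule.Quotient.mk x) = Submodule.Quotient.mk (X.ρ g x) :=
  rfl

/-- An equivariant linear equivalence. -/
structure REquiv (X Y : FRep K G) where
  /-- the underlying linear equivalence -/
  e : X.V ≃ₗ[K] Y.V
  /-- equivariance -/
  comm : ∀ g v, e (X.ρ g v) = Y.ρ g (e v)

namespace REquiv

/-- identity -/
def refl (X : FRep K G) : REquiv X X := ⟨LinearEquiv.refl K X.V, fun _ _ => rfl⟩

/-- inverse -/
def symm {X Y : FRep K G} (f : REquiv X Y) : REquiv Y X :=
  ⟨f.e.symm, fun g v => by
    apply f.e.injective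
    rw [f.comm, LinearEquiv.apply_symm_apply, LinearEquiv.apply_symm_apply]⟩

/-- composition -/
def trans {X Y Z : FRep K G} (f : REquiv X Y) (h : REquiv Y Z) : REquiv X Z :=
  ⟨f.e.trans h.e, fun g v => by
    rw [LinearEquiv.trans_apply, f.comm, h.comm, LinearEquiv.trans_apply]⟩

end REquiv

/-- An additive invariant of finite dimensional representations with values in `M`. -/
structure AddInv (K : Type) [Field K] (G : Type) [Group G] (M : Type) [AddCommMonoid M] where
  /-- the value -/
  val : FRep K G → M
  /-- invariance under equivariant isomorphisms -/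
  iso : ∀ X Y : FRep K G, REquiv X Y → val X = val Y
  /-- the zero representation -/
  zero : ∀ X : FRep K G, Subsingleton X.V → val X = 0
  /-- additivity in an invariant subspace and its quotient -/
  add : ∀ (X : FRep K G) (U : Submodule K X.V) (hU : Inv X U),
    val X = val (X.sub U hU) + val (X.quot U hU)

/-- The subrepresentation on `⊥` is zero. -/
instance (X : FRep K G) : Subsingleton (X.sub ⊥ (inv_bot X)).V :=
  inferInstanceAs (Subsingleton (⊥ : Submodule K X.V))

/-- The quotient by `⊥` is the representation itself. -/
def quotBotEquiv (X : FRep K G) : REquiv (X.quot ⊥ (inv_bot X)) X :=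
  ⟨Submodule.quotEquivOfEqBot ⊥ rfl, fun g v => by
    induction v using Submodule.Quotient.induction_on with
    | H v => rfl⟩

/-- The subrepresentation on `⊤` is the representation itself. -/
def subTopEquiv (X : FRep K G) : REquiv (X.sub ⊤ (inv_top X)) X :=
  ⟨Submodule.topEquiv, fun _ _ => rfl⟩

/-- For group valued invariants the axiom `zero` follows from additivity. -/
def AddInv.ofGroup {M : Type} [AddCommGroup M] (val : FRep K G → M)
    (iso : ∀ X Y : FRep K G, REquiv X Y → val X = val Y)
    (add : ∀ (X : FRep K G) (U : Submodule K X.V) (hU : Inv X U),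
      val X = val (X.sub U hU) + val (X.quot U hU)) : AddInv K G M where
  val := val
  iso := iso
  add := add
  zero X hX := by
    have h := add X ⊥ (inv_bot X)
    have e1 : REquiv (X.sub ⊥ (inv_bot X)) X :=
      ⟨{ toFun := fun v => v.1
         map_add' := fun _ _ => rfl
         map_smul' := fun _ _ => rfl
         invFun := fun v => ⟨v, by rw [Subsingleton.elim v 0]; exact Submodule.zero_mem _⟩
         left_inv := fun v => Subtype.ext rfl
         right_inv := fun _ => rfl }, fun _ _ => rfl⟩
    rw [iso _ _ e1, iso _ _ (quotBotEquiv X)] at h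
    have := congrArg (fun t => t - val X) h
    simpa using this.symm

/-- A representation is simple if it is nonzero and has no nontrivial invariant subspace. -/
def IsSimple (X : FRep K G) : Prop :=
  Nontrivial X.V ∧ ∀ U : Submodule K X.V, Inv X U → U = ⊥ ∨ U = ⊤

theorem IsSimple.of_requiv {X Y : FRep K G} (f : REquiv X Y) (hX : IsSimple X) : IsSimple Y := by
  obtain ⟨hnt, h⟩ := hX
  refine ⟨f.e.toEquiv.symm.nontrivial, fun U hU => ?_⟩
  have hU' : Inv X (U.comap f.e.toLinearMap) := by
    intro g v hv
    rw [Submodule.mem_comap] at hv ⊢
    rw [Submodule.mem_comap]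
    change f.e (X.ρ g v) ∈ U
    rw [f.comm]
    exact hU g hv
  rcases h _ hU' with h0 | h1
  · left
    rw [eq_bot_iff]
    intro y hy
    have : f.e.symm y ∈ U.comap f.e.toLinearMap := by
      rw [Submodule.mem_comap]
      change f.e (f.e.symm y) ∈ U
      rwa [LinearEquiv.apply_symm_apply]
    rw [h0, Submodule.mem_bot] at this
    rw [Submodule.mem_bot]
    have h2 := congrArg f.e this
    rwa [LinearEquiv.apply_symm_apply, map_zero] at h2
  · right
    rw [eq_top_iff]
    intro y _
    have : f.e.symm y ∈ U.comap f.e.toLinearMap := by rw [h1]; exact Submodule.mem_top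
    rw [Submodule.mem_comap] at this
    change f.e (f.e.symm y) ∈ U at this
    rwa [LinearEquiv.apply_symm_apply] at this

/-- Every nonzero finite dimensional representation has a simple subrepresentation. -/
theorem exists_simple_sub (X : FRep K G) [Nontrivial X.V] :
    ∃ (U : Submodule K X.V) (hU : Inv X U), IsSimple (X.sub U hU) := by
  classical
  -- choose a nonzero invariant subspace of minimal dimension
  let P : ℕ → Prop := fun n => ∃ U : Submodule K X.V, Inv X U ∧ U ≠ ⊥ ∧ Module.finrank K U = n
  have hP : ∃ n, P n := ⟨_, ⊤, inv_top X, top_ne_bot, rfl⟩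
  obtain ⟨U, hU, hne, hfin⟩ := Nat.find_spec hP
  refine ⟨U, hU, ?_, fun W hW => ?_⟩
  · exact (Submodule.nontrivial_iff_ne_bot).2 hne
  · -- `W` is an invariant subspace of `U`
    let W' : Submodule K X.V := W.map U.subtype
    have hW' : Inv X W' := by
      rintro g _ ⟨w, hw, rfl⟩
      exact ⟨(X.sub U hU).ρ g w, hW g hw, rfl⟩
    have hle : W' ≤ U := Submodule.map_subtype_le U W
    by_cases h0 : W = ⊥
    · exact Or.inl h0
    · right
      have hW'ne : W' ≠ ⊥ := by
        intro h
        apply h0
        rw [eq_bot_iff]
        intro w hw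
        have : (w : X.V) ∈ W' := ⟨w, hw, rfl⟩
        rw [h, Submodule.mem_bot] at this
        rw [Submodule.mem_bot]
        exact Subtype.ext this
      have hmin : Module.finrank K U ≤ Module.finrank K W' := by
        rw [hfin]
        exact Nat.find_min' hP ⟨W', hW', hW'ne, rfl⟩
      have heq : W' = U := Submodule.eq_of_le_of_finrank_le hle hmin
      rw [eq_top_iff]
      intro u _
      have : (u : X.V) ∈ W' := by rw [heq]; exact u.2
      obtain ⟨w, hw, hwu⟩ := this
      have : w = u := Subtype.ext hwu
      rwa [← this]

/-- `X` has the simple representations `T i` as composition factors (encoded via additive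
invariants). -/
def HasFactors (X : FRep K G) {ι : Type} [Fintype ι] (T : ι → FRep K G) : Prop :=
  (∀ i, IsSimple (T i)) ∧
    ∀ (M : Type) [AddCommMonoid M] (F : AddInv K G M), F.val X = ∑ i, F.val (T i)

/-- Every finite dimensional representation has a family of composition factors. -/
theorem exists_hasFactors (X : FRep K G) :
    ∃ (n : ℕ) (T : Fin n → FRep K G), HasFactors X T := by
  classical
  induction h : Module.finrank K X.V using Nat.strong_induction_on generalizing X with
  | _ d ih =>
    by_cases hX : Subsingleton X.V
    · refine ⟨0, fun i => i.elim0, fun i => i.elim0, fun M _ F => ?_⟩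
      rw [F.zero X hX]
      simp
    · have : Nontrivial X.V := not_subsingleton_iff_nontrivial.1 hX
      obtain ⟨U, hU, hS⟩ := exists_simple_sub X
      have hUne : U ≠ ⊥ := by
        have := hS.1
        exact (Submodule.nontrivial_iff_ne_bot).1 this
      have hlt : Module.finrank K (X.quot U hU).V < d := by
        rw [← h]
        change Module.finrank K (X.V ⧸ U) < _
        have h1 := Submodule.finrank_quotient_add_finrank U
        have h2 : 0 < Module.finrank K U := Module.finrank_pos_iff.2 hS.1
        omega
      obtain ⟨n, T, hT1, hT2⟩ := ih _ hlt (X.quot U hU) rfl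
      refine ⟨n + 1, Fin.cons (X.sub U hU) T, ?_, fun M _ F => ?_⟩
      · intro i
        refine Fin.cases ?_ (fun j => ?_) i
        · simpa using hS
        · simpa using hT1 j
      · rw [F.add X U hU, hT2 M F, Fin.sum_univ_succ]
        simp

end Fermat.Agent.Lib.ModRep
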