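/-
helper66 (P-S56, block (B) leaf): modular representation theory, part 2.

Trace and characteristic polynomial of an endomorphism preserving a subspace: additivity of the
trace, multiplicativity of the characteristic polynomial.  The characteristic polynomial of a
group element as a multiplicative invariant of finite dimensional representations.
-/
import Fermat.Agent.Lib.ModRep.Basic

set_option autoImplicit false

open Module Polynomial

namespace Fermat.Agent.Lib.ModRep

section LinearAlgebra

variable {K : Type} [Field K]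

theorem trace_prod_eq {A B : Type} [AddCommGroup A] [Module K A] [AddCommGroup B]
    [Module K B] [Module.Finite K A] [Module.Finite K B] (g : (A × B) →ₗ[K] (A × B)) :
    LinearMap.trace K (A × B) g =
      LinearMap.trace K A (LinearMap.fst K A B ∘ₗ g ∘ₗ LinearMap.inl K A B) +
      LinearMap.trace K B (LinearMap.snd K A B ∘ₗ g ∘ₗ LinearMap.inr K A B) := by
  have h : g = (LinearMap.inl K A B ∘ₗ LinearMap.fst K A B) ∘ₗ g +
      (LinearMap.inr K A B ∘ₗ LinearMap.snd K A B) ∘ₗ g := by
    apply LinearMap.ext
    rintro x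
    simp only [LinearMap.add_apply, LinearMap.coe_comp, Function.comp_apply, LinearMap.fst_apply,
      LinearMap.snd_apply, LinearMap.inl_apply, LinearMap.inr_apply, Prod.mk_add_mk, add_zero,
      zero_add]
  conv_lhs => rw [h]
  rw [map_add, LinearMap.comp_assoc, LinearMap.comp_assoc, LinearMap.trace_comp_comm',
    LinearMap.trace_comp_comm' (LinearMap.snd K A B ∘ₗ g)]
  rfl

theorem charpoly_prod_of_lower_zero {A B : Type} [AddCommGroup A] [Module K A]
    [AddCommGroup B] [Module K B] [Module.Finite K A] [Module.Finite K B]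
    (g : (A × B) →ₗ[K] (A × B))
    (h0 : LinearMap.snd K A B ∘ₗ g ∘ₗ LinearMap.inl K A B = 0) :
    g.charpoly = (LinearMap.fst K A B ∘ₗ g ∘ₗ LinearMap.inl K A B).charpoly *
      (LinearMap.snd K A B ∘ₗ g ∘ₗ LinearMap.inr K A B).charpoly := by
  classical
  let b₁ := Module.Free.chooseBasis K A
  let b₂ := Module.Free.chooseBasis K B
  let b := b₁.prod b₂
  rw [← LinearMap.charpoly_toMatrix g b,
    ← LinearMap.charpoly_toMatrix (LinearMap.fst K A B ∘ₗ g ∘ₗ LinearMap.inl K A B) b₁,
    ← LinearMap.charpoly_toMatrix (LinearMap.snd K A B ∘ₗ g ∘ₗ LinearMap.inr K A B) b₂]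
  have hm : LinearMap.toMatrix b b g = Matrix.fromBlocks
      (LinearMap.toMatrix b₁ b₁ (LinearMap.fst K A B ∘ₗ g ∘ₗ LinearMap.inl K A B))
      (LinearMap.toMatrix b₂ b₁ (LinearMap.fst K A B ∘ₗ g ∘ₗ LinearMap.inr K A B))
      0
      (LinearMap.toMatrix b₂ b₂ (LinearMap.snd K A B ∘ₗ g ∘ₗ LinearMap.inr K A B)) := by
    ext (i | i) (j | j)
    · simp [LinearMap.toMatrix_apply, b]
    · simp [LinearMap.toMatrix_apply, b]
    · have := congrArg (fun f => f (b₁ j)) h0
      simp only [LinearMap.coe_comp, Function.comp_apply, LinearMap.inl_apply,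
        LinearMap.snd_apply, LinearMap.zero_apply] at this
      simp [LinearMap.toMatrix_apply, b, this]
    · simp [LinearMap.toMatrix_apply, b]
  rw [hm, Matrix.charpoly_fromBlocks_zero₂₁]

variable {V : Type} [AddCommGroup V] [Module K V] [Module.Finite K V]

omit [Module.Finite K V] in
/-- The two diagonal blocks of an endomorphism preserving `U`, in a decomposition `V = U ⊕ W`. -/
theorem conj_blocks (f : V →ₗ[K] V) (U : Submodule K V) (hU : U ≤ U.comap f)
    (W : Submodule K V) (hW : IsCompl U W) :
    (LinearMap.fst K U W ∘ₗ ((Submodule.prodEquivOfIsCompl U W hW).symm.conj f) ∘ₗ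
        LinearMap.inl K U W = f.restrict hU) ∧
    (LinearMap.snd K U W ∘ₗ ((Submodule.prodEquivOfIsCompl U W hW).symm.conj f) ∘ₗ
        LinearMap.inr K U W = (Submodule.quotientEquivOfIsCompl U W hW).conj (U.mapQ U f hU)) ∧
    (LinearMap.snd K U W ∘ₗ ((Submodule.prodEquivOfIsCompl U W hW).symm.conj f) ∘ₗ
        LinearMap.inl K U W = 0) := by
  refine ⟨?_, ?_, ?_⟩
  · apply LinearMap.ext
    intro u
    apply Subtype.ext
    simp only [LinearMap.coe_comp, Function.comp_apply, LinearMap.inl_apply, LinearMap.fst_apply,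
      LinearEquiv.conj_apply, LinearEquiv.symm_symm, LinearEquiv.coe_coe,
      Submodule.coe_prodEquivOfIsCompl', Submodule.prodEquivOfIsCompl_symm_apply,
      ZeroMemClass.coe_zero, add_zero, LinearMap.coe_restrict_apply]
    exact congrArg Subtype.val
      (Submodule.projectionOnto_apply_left hW ⟨f u, hU u.2⟩)
  · apply LinearMap.ext
    intro w
    simp only [LinearMap.coe_comp, Function.comp_apply, LinearMap.inr_apply, LinearMap.snd_apply,
      LinearEquiv.conj_apply, LinearEquiv.symm_symm, LinearEquiv.coe_coe,
      Submodule.coe_prodEquivOfIsCompl', Submodule.prodEquivOfIsCompl_symm_apply,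
      ZeroMemClass.coe_zero, zero_add, Submodule.quotientEquivOfIsCompl_symm_apply,
      Submodule.mapQ_apply, Submodule.quotientEquivOfIsCompl_apply_mk]
  · apply LinearMap.ext
    intro u
    simp only [LinearMap.coe_comp, Function.comp_apply, LinearMap.inl_apply, LinearMap.snd_apply,
      LinearEquiv.conj_apply, LinearEquiv.symm_symm, LinearEquiv.coe_coe,
      Submodule.coe_prodEquivOfIsCompl', Submodule.prodEquivOfIsCompl_symm_apply,
      ZeroMemClass.coe_zero, add_zero, LinearMap.zero_apply]
    exact Submodule.projectionOnto_apply_right hW.symm ⟨f u, hU u.2⟩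

/-- Additivity of the trace. -/
theorem trace_eq_restrict_add_quot (f : V →ₗ[K] V) (U : Submodule K V) (hU : U ≤ U.comap f) :
    LinearMap.trace K V f = LinearMap.trace K U (f.restrict hU) +
      LinearMap.trace K (V ⧸ U) (U.mapQ U f hU) := by
  obtain ⟨W, hW⟩ := Submodule.exists_isCompl U
  obtain ⟨h1, h2, -⟩ := conj_blocks f U hU W hW
  rw [← LinearMap.trace_conj' f (Submodule.prodEquivOfIsCompl U W hW).symm, trace_prod_eq, h1, h2,
    LinearMap.trace_conj']

/-- Multiplicativity of the characteristic polynomial. -/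
theorem charpoly_eq_restrict_mul_quot (f : V →ₗ[K] V) (U : Submodule K V) (hU : U ≤ U.comap f) :
    f.charpoly = (f.restrict hU).charpoly * (U.mapQ U f hU).charpoly := by
  obtain ⟨W, hW⟩ := Submodule.exists_isCompl U
  obtain ⟨h1, h2, h3⟩ := conj_blocks f U hU W hW
  rw [← LinearEquiv.charpoly_conj (Submodule.prodEquivOfIsCompl U W hW).symm f,
    charpoly_prod_of_lower_zero _ h3, h1, h2, LinearEquiv.charpoly_conj]

/-- The trace is minus the next coefficient of the characteristic polynomial. -/
theorem trace_eq_neg_nextCoeff (f : V →ₗ[K] V) :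
    LinearMap.trace K V f = -f.charpoly.nextCoeff := by
  classical
  let b := Module.Free.chooseBasis K V
  rw [← LinearMap.charpoly_toMatrix f b, LinearMap.trace_eq_matrix_trace K b,
    Matrix.trace_eq_neg_charpoly_nextCoeff]

end LinearAlgebra

variable {K : Type} [Field K] {G : Type} [Group G]

/-- The characteristic polynomial of a group element. -/
noncomputable def cp (X : FRep K G) (g : G) : K[X] := (X.ρ g).charpoly

theorem cp_monic (X : FRep K G) (g : G) : (cp X g).Monic := LinearMap.charpoly_monic _

theorem cp_ne_zero (X : FRep K G) (g : G) : cp X g ≠ 0 := (cp_monic X g).ne_zero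

theorem cp_eq_of_requiv {X Y : FRep K G} (f : REquiv X Y) (g : G) : cp X g = cp Y g := by
  unfold cp
  have : Y.ρ g = f.e.conj (X.ρ g) := by
    apply LinearMap.ext
    intro y
    rw [LinearEquiv.conj_apply]
    change _ = f.e (X.ρ g (f.e.symm y))
    rw [f.comm, LinearEquiv.apply_symm_apply]
  rw [this, LinearEquiv.charpoly_conj]

theorem cp_eq_one_of_subsingleton (X : FRep K G) (h : Subsingleton X.V) (g : G) : cp X g = 1 := by
  unfold cp
  have hm := LinearMap.charpoly_monic (X.ρ g)
  have hd : (X.ρ g).charpoly.natDegree = 0 := by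
    rw [LinearMap.charpoly_natDegree, Module.finrank_zero_of_subsingleton]
  exact Polynomial.eq_one_of_monic_natDegree_zero hm hd

theorem cp_eq_sub_mul_quot (X : FRep K G) (U : Submodule K X.V) (hU : Inv X U) (g : G) :
    cp X g = cp (X.sub U hU) g * cp (X.quot U hU) g :=
  charpoly_eq_restrict_mul_quot (X.ρ g) U (hU g)

/-- The characteristic polynomial of `g` as a multiplicative invariant. -/
noncomputable def cpInv (g : G) : AddInv K G (Additive K[X]) where
  val X := Additive.ofMul (cp X g)
  iso X Y f := congrArg Additive.ofMul (cp_eq_of_requiv f g)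
  zero X h := by rw [cp_eq_one_of_subsingleton X h g]; rfl
  add X U hU := by rw [cp_eq_sub_mul_quot X U hU g]; rfl

/-- The trace of a group element. -/
noncomputable def tr (X : FRep K G) (g : G) : K := LinearMap.trace K X.V (X.ρ g)

theorem tr_eq_neg_nextCoeff (X : FRep K G) (g : G) : tr X g = -(cp X g).nextCoeff :=
  trace_eq_neg_nextCoeff _

/-- Composition factors compute the characteristic polynomials. -/
theorem HasFactors.cp_eq {X : FRep K G} {ι : Type} [Fintype ι] {T : ι → FRep K G}
    (h : HasFactors X T) (g : G) : cp X g = ∏ i, cp (T i) g := by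
  have := h.2 _ (cpInv g)
  change Additive.ofMul (cp X g) = ∑ i, Additive.ofMul (cp (T i) g) at this
  rw [← ofMul_prod] at this
  exact Additive.ofMul.injective this

end Fermat.Agent.Lib.ModRep
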