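/-
helper66 (P-S56, block (B) leaf): modular representation theory, part 3.

Consequences of the Jacobson density theorem: for pairwise non-isomorphic simple modules there
are elements of the ring acting as the identity on one of them and as zero on the others; a
simple module over an algebra over a finite field has a non-zero trace functional.  Translation
to finite dimensional representations of a group.
-/
import Fermat.Agent.Lib.ModRep.Charpoly

set_option autoImplicit false

open Module

namespace Fermat.Agent.Lib.ModRep

section Projector

variable {K R : Type} [Field K] [Ring R] [Algebra K R] {ι : Type} [Finite ι]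
  (M : ι → Type) [∀ i, AddCommGroup (M i)] [∀ i, Module R (M i)] [∀ i, Module K (M i)]
  [∀ i, IsScalarTower K R (M i)] [∀ i, Module.Finite K (M i)] [∀ i, IsSimpleModule R (M i)]

include K in
/-- For pairwise non-isomorphic simple modules `M i` (finite dimensional over `K`) there is an
element of the ring acting as the identity on `M r` and as zero on the other `M s`. -/
theorem exists_projector (hM : ∀ i j, Nonempty (M i ≃ₗ[R] M j) → i = j) (r : ι) :
    ∃ a : R, (∀ x : M r, a • x = x) ∧ ∀ s, s ≠ r → ∀ y : M s, a • y = 0 := by
  classical
  have := Fintype.ofFinite ι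
  -- no nonzero maps between different `M s`, `M t`
  have hzero : ∀ (u : (Π i, M i) →ₗ[R] (Π i, M i)) (s t : ι), s ≠ t → ∀ y : M s,
      u (Pi.single s y) t = 0 := by
    intro u s t hst y
    let v : M s →ₗ[R] M t := (LinearMap.proj t) ∘ₗ u ∘ₗ (LinearMap.single R M s)
    rcases LinearMap.bijective_or_eq_zero v with hb | h0
    · exact absurd (hM s t ⟨LinearEquiv.ofBijective v hb⟩) hst
    · exact congrArg (fun w => w y) h0
  -- the projection onto the `r`-th coordinate commutes with all endomorphisms
  let f : End (End R (Π i, M i)) (Π i, M i) :=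
    { toFun := fun x => Pi.single r (x r)
      map_add' := fun x y => by rw [Pi.add_apply, Pi.single_add]
      map_smul' := fun u x => by
        rw [RingHom.id_apply, Module.End.smul_def, Module.End.smul_def]
        have hx : x = ∑ s, Pi.single s (x s) := by
          funext t
          rw [Finset.sum_apply, Finset.sum_eq_single t]
          · rw [Pi.single_eq_same]
          · intro s _ hst
            rw [Pi.single_eq_of_ne (Ne.symm hst)]
          · intro ht
            exact absurd (Finset.mem_univ t) ht
        have h1 : (u x) r = u (Pi.single r (x r)) r := by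
          conv_lhs => rw [hx, map_sum, Finset.sum_apply]
          rw [Finset.sum_eq_single r]
          · intro s _ hsr
            exact hzero u s r hsr (x s)
          · intro hr
            exact absurd (Finset.mem_univ r) hr
        funext t
        by_cases ht : t = r
        · subst ht
          rw [Pi.single_eq_same, h1]
        · rw [Pi.single_eq_of_ne ht, hzero u r t (Ne.symm ht)] }
  have hf : ∀ x, f x = Pi.single r (x r) := fun _ => rfl
  obtain ⟨s, hs⟩ := (Module.Finite.fg_top : (⊤ : Submodule K (Π i, M i)).FG)
  obtain ⟨a, ha⟩ := jacobson_density f s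
  have hall : ∀ x : Π i, M i, f x = a • x := by
    intro x
    have hx : x ∈ Submodule.span K (s : Set (Π i, M i)) := by rw [hs]; exact Submodule.mem_top
    induction hx using Submodule.span_induction with
    | mem x hx => exact ha x hx
    | zero => rw [map_zero, smul_zero]
    | add x y _ _ hx hy => rw [map_add, smul_add, hx, hy]
    | smul c x _ hx =>
      rw [smul_algebra_smul_comm, ← hx, hf, hf, Pi.smul_apply, Pi.single_smul]
  refine ⟨a, fun x => ?_, fun t htr y => ?_⟩
  · have := congrFun (hall (Pi.single r x)) r
    rw [hf, Pi.single_eq_same, Pi.single_eq_same, Pi.smul_apply, Pi.single_eq_same] at this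
    exact this.symm
  · have := congrFun (hall (Pi.single t y)) t
    rw [hf, Pi.single_eq_of_ne htr, Pi.smul_apply, Pi.single_eq_same] at this
    exact this.symm

end Projector

section NonzeroTrace

variable {K R : Type} [Field K] [Finite K] [Ring R] [Algebra K R]
  (M : Type) [AddCommGroup M] [Module R M] [Module K M]
  [IsScalarTower K R M] [Module.Finite K M] [IsSimpleModule R M]

/-- A simple module over an algebra over a finite field has a nonzero trace functional. -/
theorem exists_trace_ne_zero : ∃ a : R, LinearMap.trace K M (Algebra.lsmul K K M a) ≠ 0 := by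
  classical
  have hfinM : Finite M := Module.finite_of_finite K
  have : Finite (Module.End R M) := Finite.of_injective (fun f : Module.End R M => (f : M → M))
    DFunLike.coe_injective
  let _ : Field (Module.End R M) := littleWedderburn (Module.End R M)
  have : Nontrivial M := IsSimpleModule.nontrivial R M
  obtain ⟨v₀, hv₀⟩ := exists_ne (0 : M)
  -- the orbit map `D → M`
  let f0 : Module.End R M →ₗ[Module.End R M] M := LinearMap.toSpanSingleton (Module.End R M) M v₀
  have hf0 : LinearMap.ker f0 = ⊥ := by
    rw [LinearMap.ker_eq_bot']
    intro d hd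
    change d v₀ = 0 at hd
    rcases LinearMap.bijective_or_eq_zero d with hb | h0
    · exact absurd (hb.1 (hd.trans (map_zero d).symm)) hv₀
    · exact h0
  obtain ⟨ℓ, hℓ⟩ := LinearMap.exists_leftInverse_of_injective f0 hf0
  have : Module.Finite K (Module.End R M) := inferInstance
  obtain ⟨lam, hlam⟩ : ∃ lam : Module.End R M, Algebra.trace K (Module.End R M) lam ≠ 0 := by
    have hs := Algebra.trace_surjective K (Module.End R M)
    obtain ⟨lam, h1⟩ := hs 1
    exact ⟨lam, by rw [h1]; exact one_ne_zero⟩
  -- the endomorphism `x ↦ (lam * ℓ x) • v₀`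
  let φ : M →ₗ[Module.End R M] M := f0 ∘ₗ (lam • ℓ)
  have : Module.Finite (Module.End R M) M := Module.Finite.of_finite
  obtain ⟨a, ha⟩ := Module.Finite.toModuleEnd_moduleEnd_surjective (R := R) (M := M) φ
  refine ⟨a, ?_⟩
  have h1 : Algebra.lsmul K K M a =
      (f0.restrictScalars K) ∘ₗ ((LinearMap.mulLeft K lam) ∘ₗ (ℓ.restrictScalars K)) := by
    apply LinearMap.ext
    intro x
    have := congrArg (fun g => g x) ha
    simp only [Module.toModuleEnd_apply, DistribSMul.toLinearMap_apply] at this
    rw [Algebra.lsmul_coe]
    exact this.trans rfl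
  rw [h1, LinearMap.trace_comp_comm']
  have h2 : ((LinearMap.mulLeft K lam) ∘ₗ (ℓ.restrictScalars K)) ∘ₗ (f0.restrictScalars K) =
      LinearMap.mulLeft K lam := by
    apply LinearMap.ext
    intro d
    have := congrArg (fun g => g d) hℓ
    simp only [LinearMap.coe_comp, Function.comp_apply, LinearMap.id_coe, id_eq] at this
    simp only [LinearMap.coe_comp, Function.comp_apply, LinearMap.coe_restrictScalars, this]
  rw [h2]
  exact hlam

end NonzeroTrace

section Bridge

open scoped MonoidAlgebra

variable {K : Type} [Field K] {G : Type} [Group G]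

/-- A simple representation gives a simple module over the group algebra. -/
theorem IsSimple.isSimpleModule {X : FRep K G} (h : IsSimple X) :
    IsSimpleModule K[G] X.ρ.asModule := by
  rw [← Representation.irreducible_iff_isSimpleModule_asModule]
  have hnt := h.1
  refine { exists_pair_ne := ⟨⊥, ⊤, ?_⟩, eq_bot_or_eq_top := fun σ => ?_ }
  · intro hbt
    obtain ⟨x, hx⟩ := exists_ne (0 : X.V)
    have h1 : x ∈ (⊤ : Subrepresentation X.ρ) := Submodule.mem_top (R := K)
    rw [← hbt] at h1
    exact hx ((Submodule.mem_bot K).1 h1)
  · rcases h.2 σ.toSubmodule (fun g x hx => σ.apply_mem_toSubmodule g hx) with h0 | h1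
    · left
      exact Subrepresentation.toSubmodule_injective h0
    · right
      exact Subrepresentation.toSubmodule_injective h1

/-- The action of the group algebra on the module attached to a representation. -/
theorem asModule_smul_eq (X : FRep K G) (a : K[G]) (v : X.ρ.asModule) :
    a • v = X.ρ.asModuleEquiv.symm (X.ρ.asAlgebraHom a (X.ρ.asModuleEquiv v)) := rfl

/-- An isomorphism of the attached modules gives an equivariant isomorphism. -/
noncomputable def requivOfLinearEquiv {X Y : FRep K G}
    (e : X.ρ.asModule ≃ₗ[K[G]] Y.ρ.asModule) : REquiv X Y where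
  e := X.ρ.asModuleEquiv.symm ≪≫ₗ (e.restrictScalars K) ≪≫ₗ Y.ρ.asModuleEquiv
  comm g v := by
    simp only [LinearEquiv.trans_apply, LinearEquiv.restrictScalars_apply,
      Representation.asModuleEquiv_symm_map_rho, map_smul]
    rw [MonoidAlgebra.of_apply, Representation.single_smul, one_smul]
    rfl

/-- The projector of `exists_projector` for representations. -/
theorem exists_projector_frep {ι : Type} [Finite ι] (S : ι → FRep K G)
    (hS : ∀ i, IsSimple (S i)) (hne : ∀ i j, Nonempty (REquiv (S i) (S j)) → i = j) (r : ι) :
    ∃ a : K[G], (∀ x : (S r).V, (S r).ρ.asAlgebraHom a x = x) ∧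
      ∀ s, s ≠ r → ∀ y : (S s).V, (S s).ρ.asAlgebraHom a y = 0 := by
  have : ∀ i, IsSimpleModule K[G] (S i).ρ.asModule := fun i => (hS i).isSimpleModule
  obtain ⟨a, h1, h2⟩ := exists_projector (K := K) (R := K[G]) (fun i => (S i).ρ.asModule)
    (fun i j ⟨e⟩ => hne i j ⟨requivOfLinearEquiv e⟩) r
  exact ⟨a, fun x => h1 x, fun s hs y => h2 s hs y⟩

/-- A simple representation over a finite field has a non-zero trace functional. -/
theorem exists_trace_ne_zero_frep [Finite K] (S : FRep K G) (hS : IsSimple S) :
    ∃ a : K[G], LinearMap.trace K S.V (S.ρ.asAlgebraHom a) ≠ 0 := by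
  have : IsSimpleModule K[G] S.ρ.asModule := hS.isSimpleModule
  obtain ⟨a, ha⟩ := exists_trace_ne_zero (K := K) (R := K[G]) S.ρ.asModule
  refine ⟨a, ?_⟩
  have h : Algebra.lsmul K K S.ρ.asModule a =
      S.ρ.asModuleEquiv.symm.conj (S.ρ.asAlgebraHom a) := by
    apply LinearMap.ext
    intro v
    rfl
  rw [h, LinearMap.trace_conj'] at ha
  exact ha

end Bridge

end Fermat.Agent.Lib.ModRep
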