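/-
helper66 (P-S56, block (B) leaf): modular representation theory, part 4.

The Brauer-Nesbitt theorem for group representations over a finite field `K` of characteristic
`p`: if two finite dimensional representations `X`, `Y` of `G` satisfy
`charpoly (X.ρ g) = charpoly (Y.ρ g)` for all `g : G`, then every additive invariant takes the
same value on `X` and `Y` (i.e. `X` and `Y` have the same composition factors).
-/
import Fermat.Agent.Lib.ModRep.Density

set_option autoImplicit false

open Module Polynomial
open scoped MonoidAlgebra

namespace Fermat.Agent.Lib.ModRep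

variable {K : Type} [Field K] {G : Type} [Group G]

/-- The trace functional of a representation on the group algebra. -/
noncomputable def trA (X : FRep K G) : K[G] →ₗ[K] K :=
  (LinearMap.trace K X.V) ∘ₗ X.ρ.asAlgebraHom.toLinearMap

theorem trA_apply (X : FRep K G) (a : K[G]) :
    trA X a = LinearMap.trace K X.V (X.ρ.asAlgebraHom a) := rfl

theorem trA_single (X : FRep K G) (g : G) (c : K) :
    trA X (MonoidAlgebra.single g c) = c * tr X g := by
  rw [trA_apply, Representation.asAlgebraHom_single, map_smul, smul_eq_mul]
  rfl

/-- A linear relation between the traces of group elements extends to the group algebra. -/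
theorem sum_trA_eq {ι : Type} [Fintype ι] (S : ι → FRep K G) (c d : ι → K)
    (h : ∀ g, ∑ s, c s * tr (S s) g = ∑ s, d s * tr (S s) g) (a : K[G]) :
    ∑ s, c s * trA (S s) a = ∑ s, d s * trA (S s) a := by
  induction a using MonoidAlgebra.induction_linear with
  | zero => simp
  | add x y hx hy =>
    simp only [map_add, mul_add, Finset.sum_add_distrib, hx, hy]
  | single g t =>
    simp only [trA_single]
    have := congrArg (fun z => t * z) (h g)
    simp only [Finset.mul_sum] at this
    calc ∑ s, c s * (t * tr (S s) g) = ∑ s, t * (c s * tr (S s) g) :=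
          Finset.sum_congr rfl fun s _ => by ring
      _ = ∑ s, t * (d s * tr (S s) g) := this
      _ = ∑ s, d s * (t * tr (S s) g) := Finset.sum_congr rfl fun s _ => by ring

/-- Multiplicities are determined modulo the characteristic by the traces. -/
theorem mult_cast_eq_of_tr [Finite K] {ι : Type} [Fintype ι] (S : ι → FRep K G)
    (hS : ∀ i, IsSimple (S i)) (hne : ∀ i j, Nonempty (REquiv (S i) (S j)) → i = j)
    (c d : ι → K) (h : ∀ g, ∑ s, c s * tr (S s) g = ∑ s, d s * tr (S s) g) (r : ι) :
    c r = d r := by
  classical
  obtain ⟨e, he1, he2⟩ := exists_projector_frep S hS hne r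
  obtain ⟨b, hb⟩ := exists_trace_ne_zero_frep (S r) (hS r)
  have key := sum_trA_eq S c d h (e * b)
  have hval : ∀ s, trA (S s) (e * b) = if s = r then trA (S r) b else 0 := by
    intro s
    rw [trA_apply, map_mul]
    by_cases hs : s = r
    · subst hs
      rw [if_pos rfl, trA_apply]
      congr 1
      apply LinearMap.ext
      intro x
      rw [Module.End.mul_apply, he1]
    · rw [if_neg hs]
      have : (S s).ρ.asAlgebraHom e * (S s).ρ.asAlgebraHom b = 0 := by
        apply LinearMap.ext
        intro x
        rw [Module.End.mul_apply, he2 s hs, LinearMap.zero_apply]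
      rw [this, map_zero]
  simp only [hval, mul_ite, mul_zero, Finset.sum_ite_eq', Finset.mem_univ, if_true] at key
  exact mul_right_cancel₀ hb key

/-- The product of the characteristic polynomials with multiplicities. -/
noncomputable def cpProd {ι : Type} [Fintype ι] (S : ι → FRep K G) (m : ι → ℕ) (g : G) : K[X] :=
  ∏ s, cp (S s) g ^ m s

theorem cpProd_nextCoeff {ι : Type} [Fintype ι] (S : ι → FRep K G) (m : ι → ℕ) (g : G) :
    (cpProd S m g).nextCoeff = -∑ s, (m s : K) * tr (S s) g := by
  unfold cpProd
  rw [Monic.nextCoeff_prod _ _ (fun s _ => (cp_monic (S s) g).pow (m s)), ← Finset.sum_neg_distrib]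
  refine Finset.sum_congr rfl fun s _ => ?_
  rw [(cp_monic (S s) g).nextCoeff_pow, tr_eq_neg_nextCoeff, nsmul_eq_mul, mul_neg, neg_neg]

/-- **Injectivity of the characteristic polynomial data** on multiplicity vectors of pairwise
non-isomorphic simple representations. -/
theorem mult_eq_of_cpProd [Finite K] (p : ℕ) [Fact p.Prime] [CharP K p] {ι : Type} [Fintype ι]
    (S : ι → FRep K G) (hS : ∀ i, IsSimple (S i))
    (hne : ∀ i j, Nonempty (REquiv (S i) (S j)) → i = j) :
    ∀ (N : ℕ) (m n : ι → ℕ), ∑ s, m s + ∑ s, n s ≤ N →
      (∀ g, cpProd S m g = cpProd S n g) → m = n := by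
  classical
  intro N
  induction N using Nat.strong_induction_on with
  | _ N ih =>
    intro m n hN h
    by_cases hcommon : ∃ r, 0 < m r ∧ 0 < n r
    · -- remove a common factor
      obtain ⟨r, hmr, hnr⟩ := hcommon
      have hdec : ∀ k : ι → ℕ, 0 < k r → (∀ g, cpProd S k g =
          cpProd S (Function.update k r (k r - 1)) g * cp (S r) g) ∧
          ∑ s, k s = ∑ s, (Function.update k r (k r - 1)) s + 1 := by
        intro k hk
        constructor
        · intro g
          unfold cpProd
          rw [← Finset.mul_prod_erase Finset.univ _ (Finset.mem_univ r),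
            ← Finset.mul_prod_erase Finset.univ (fun s => cp (S s) g ^ Function.update k r (k r - 1) s)
              (Finset.mem_univ r)]
          have h1 : ∀ s ∈ Finset.univ.erase r, cp (S s) g ^ Function.update k r (k r - 1) s =
              cp (S s) g ^ k s := by
            intro s hs
            rw [Function.update_of_ne (Finset.ne_of_mem_erase hs)]
          rw [Finset.prod_congr rfl h1, Function.update_self]
          have h2 : cp (S r) g ^ k r = cp (S r) g ^ (k r - 1) * cp (S r) g := by
            rw [← pow_succ, Nat.sub_add_cancel hk]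
          rw [h2]
          ring
        · have e1 := Finset.add_sum_erase Finset.univ k (Finset.mem_univ r)
          have e2 := Finset.add_sum_erase Finset.univ (Function.update k r (k r - 1))
            (Finset.mem_univ r)
          have e3 : ∑ x ∈ Finset.univ.erase r, Function.update k r (k r - 1) x =
              ∑ x ∈ Finset.univ.erase r, k x := by
            refine Finset.sum_congr rfl fun s hs => ?_
            rw [Function.update_of_ne (Finset.ne_of_mem_erase hs)]
          rw [Function.update_self] at e2
          omega
      obtain ⟨hm1, hm2⟩ := hdec m hmr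
      obtain ⟨hn1, hn2⟩ := hdec n hnr
      have hlt : ∑ s, (Function.update m r (m r - 1)) s + ∑ s, (Function.update n r (n r - 1)) s < N := by
        omega
      have := ih _ hlt _ _ le_rfl (fun g => by
        have := h g
        rw [hm1 g, hn1 g] at this
        exact mul_right_cancel₀ (cp_ne_zero (S r) g) this)
      funext s
      by_cases hs : s = r
      · subst hs
        have h1 := congrFun this s
        rw [Function.update_self, Function.update_self] at h1
        omega
      · have h1 := congrFun this s
        rwa [Function.update_of_ne hs, Function.update_of_ne hs] at h1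
    · -- disjoint supports: all multiplicities are divisible by `p`
      have hdisj : ∀ r, m r = 0 ∨ n r = 0 := by
        intro r
        by_contra hcon
        rw [not_or] at hcon
        exact hcommon ⟨r, Nat.pos_of_ne_zero hcon.1, Nat.pos_of_ne_zero hcon.2⟩
      have htr : ∀ g, ∑ s, (m s : K) * tr (S s) g = ∑ s, (n s : K) * tr (S s) g := by
        intro g
        have := congrArg Polynomial.nextCoeff (h g)
        rw [cpProd_nextCoeff, cpProd_nextCoeff] at this
        exact neg_injective this
      have hcast := mult_cast_eq_of_tr S hS hne (fun s => (m s : K)) (fun s => (n s : K)) htr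
      have hdvd : ∀ r, p ∣ m r ∧ p ∣ n r := by
        intro r
        have hr := hcast r
        rcases hdisj r with h0 | h0
        · rw [h0, Nat.cast_zero] at hr
          exact ⟨by rw [h0]; exact dvd_zero p, (CharP.cast_eq_zero_iff K p (n r)).1 hr.symm⟩
        · rw [h0, Nat.cast_zero] at hr
          exact ⟨(CharP.cast_eq_zero_iff K p (m r)).1 hr, by rw [h0]; exact dvd_zero p⟩
      have hp : 2 ≤ p := (Fact.out : p.Prime).two_le
      by_cases hzero : ∑ s, m s + ∑ s, n s = 0
      · have h1 : ∑ s, m s = 0 := by omega
        have h2 : ∑ s, n s = 0 := by omega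
        rw [Finset.sum_eq_zero_iff] at h1 h2
        funext s
        rw [h1 s (Finset.mem_univ s), h2 s (Finset.mem_univ s)]
      · -- divide by `p`
        have hm : ∀ s, m s = p * (m s / p) := fun s => (Nat.mul_div_cancel' (hdvd s).1).symm
        have hn : ∀ s, n s = p * (n s / p) := fun s => (Nat.mul_div_cancel' (hdvd s).2).symm
        have hsum : ∀ k : ι → ℕ, (∀ s, k s = p * (k s / p)) →
            ∑ s, k s = p * ∑ s, k s / p := by
          intro k hk
          rw [Finset.mul_sum]
          exact Finset.sum_congr rfl fun s _ => hk s
        have hpow : ∀ (k : ι → ℕ), (∀ s, k s = p * (k s / p)) → ∀ g,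
            cpProd S k g = cpProd S (fun s => k s / p) g ^ p := by
          intro k hk g
          unfold cpProd
          rw [← Finset.prod_pow]
          refine Finset.prod_congr rfl fun s _ => ?_
          rw [← pow_mul, mul_comm, ← hk s]
        have hlt : ∑ s, m s / p + ∑ s, n s / p < N := by
          have h1 := hsum m hm
          have h2 := hsum n hn
          have h3 : 0 < ∑ s, m s / p + ∑ s, n s / p := by
            by_contra hcon
            have : ∑ s, m s / p + ∑ s, n s / p = 0 := by omega
            have ha : ∑ s, m s / p = 0 := by omega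
            have hb : ∑ s, n s / p = 0 := by omega
            rw [ha] at h1
            rw [hb] at h2
            omega
          have h4 : 2 * (∑ s, m s / p + ∑ s, n s / p) ≤ p * (∑ s, m s / p + ∑ s, n s / p) :=
            Nat.mul_le_mul_right _ hp
          have h5 : p * (∑ s, m s / p + ∑ s, n s / p) = ∑ s, m s + ∑ s, n s := by
            rw [mul_add, ← h1, ← h2]
          omega
        have := ih _ hlt (fun s => m s / p) (fun s => n s / p) le_rfl (fun g => by
          have := h g
          rw [hpow m hm g, hpow n hn g] at this
          exact frobenius_inj K[X] p this)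
        funext s
        rw [hm s, hn s, congrFun this s]

/-- **Brauer-Nesbitt**: over a finite field of characteristic `p`, two finite dimensional
representations with the same characteristic polynomials of all group elements have the same
additive invariants. -/
theorem brauer_nesbitt [Finite K] (p : ℕ) [Fact p.Prime] [CharP K p] (X Y : FRep K G)
    (h : ∀ g, cp X g = cp Y g) {M : Type} [AddCommMonoid M] (F : AddInv K G M) :
    F.val X = F.val Y := by
  classical
  obtain ⟨a, T, hT⟩ := exists_hasFactors X
  obtain ⟨b, T', hT'⟩ := exists_hasFactors Y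
  -- the combined family and its isomorphism classes
  let U : Fin a ⊕ Fin b → FRep K G := Sum.elim T T'
  have hU : ∀ i, IsSimple (U i) := by
    rintro (i | j)
    · exact hT.1 i
    · exact hT'.1 j
  let st : Setoid (Fin a ⊕ Fin b) :=
    { r := fun i j => Nonempty (REquiv (U i) (U j))
      iseqv := ⟨fun i => ⟨REquiv.refl _⟩, fun ⟨f⟩ => ⟨f.symm⟩, fun ⟨f⟩ ⟨f'⟩ => ⟨f.trans f'⟩⟩ }
  let S : Quotient st → FRep K G := fun r => U r.out
  have hS : ∀ r, IsSimple (S r) := fun r => hU _
  have hne : ∀ r r', Nonempty (REquiv (S r) (S r')) → r = r' := by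
    intro r r' hrr
    have : (⟦r.out⟧ : Quotient st) = ⟦r'.out⟧ := Quotient.sound hrr
    rwa [Quotient.out_eq, Quotient.out_eq] at this
  have hiso : ∀ i, Nonempty (REquiv (U i) (S ⟦i⟧)) := fun i =>
    let ⟨f⟩ := Quotient.exact (Quotient.out_eq (⟦i⟧ : Quotient st))
    ⟨f.symm⟩
  -- multiplicities
  let m : Quotient st → ℕ := fun r => (Finset.univ.filter fun i : Fin a => (⟦Sum.inl i⟧ : Quotient st) = r).card
  let n : Quotient st → ℕ := fun r => (Finset.univ.filter fun j : Fin b => (⟦Sum.inr j⟧ : Quotient st) = r).card
  have hsumT : ∀ (M' : Type) [AddCommMonoid M'] (F' : AddInv K G M'),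
      ∑ i, F'.val (T i) = ∑ r, m r • F'.val (S r) := by
    intro M' _ F'
    rw [← Finset.sum_fiberwise Finset.univ (fun i : Fin a => (⟦Sum.inl i⟧ : Quotient st))]
    refine Finset.sum_congr rfl fun r _ => ?_
    rw [Finset.sum_congr rfl (g := fun _ => F'.val (S r)), Finset.sum_const]
    intro i hi
    rw [Finset.mem_filter] at hi
    obtain ⟨f⟩ := hiso (Sum.inl i)
    rw [← hi.2]
    exact F'.iso _ _ f
  have hsumT' : ∀ (M' : Type) [AddCommMonoid M'] (F' : AddInv K G M'),
      ∑ j, F'.val (T' j) = ∑ r, n r • F'.val (S r) := by
    intro M' _ F'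
    rw [← Finset.sum_fiberwise Finset.univ (fun j : Fin b => (⟦Sum.inr j⟧ : Quotient st))]
    refine Finset.sum_congr rfl fun r _ => ?_
    rw [Finset.sum_congr rfl (g := fun _ => F'.val (S r)), Finset.sum_const]
    intro j hj
    rw [Finset.mem_filter] at hj
    obtain ⟨f⟩ := hiso (Sum.inr j)
    rw [← hj.2]
    exact F'.iso _ _ f
  have hcpX : ∀ g, cp X g = cpProd S m g := by
    intro g
    have h1 := hT.2 _ (cpInv g)
    rw [hsumT _ (cpInv g)] at h1
    change Additive.ofMul (cp X g) = ∑ r, m r • Additive.ofMul (cp (S r) g) at h1
    simp only [← ofMul_pow, ← ofMul_prod] at h1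
    exact Additive.ofMul.injective h1
  have hcpY : ∀ g, cp Y g = cpProd S n g := by
    intro g
    have h1 := hT'.2 _ (cpInv g)
    rw [hsumT' _ (cpInv g)] at h1
    change Additive.ofMul (cp Y g) = ∑ r, n r • Additive.ofMul (cp (S r) g) at h1
    simp only [← ofMul_pow, ← ofMul_prod] at h1
    exact Additive.ofMul.injective h1
  have hmn : m = n := mult_eq_of_cpProd p S hS hne _ m n le_rfl (fun g => by
    rw [← hcpX g, ← hcpY g, h g])
  rw [hT.2 _ F, hT'.2 _ F, hsumT _ F, hsumT' _ F, hmn]

end Fermat.Agent.Lib.ModRep
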