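/-
helper66 (P-S56, block (B) leaf): modular representation theory, part 5.

The representation `Fun(A, X)` of functions from a finite `G`-set `A` to a representation `X`
(`= X ⊗ K[A]`; for `A = G ⧸ D` this is the (co)induced representation of the restriction of `X`
to `D`), its behaviour under equivariant bijections, sums and sigma types, and additive
invariants of short exact sequences.
-/
import Fermat.Agent.Lib.ModRep.BrauerNesbitt

set_option autoImplicit false

open Module

namespace Fermat.Agent.Lib.ModRep

variable {K : Type} [Field K] {G : Type} [Group G]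

/-- Additive invariants are additive in short exact sequences. -/
theorem AddInv.ses {M : Type} [AddCommMonoid M] (F : AddInv K G M) (X₁ X X₂ : FRep K G)
    (i : X₁.V →ₗ[K] X.V) (q : X.V →ₗ[K] X₂.V) (hi : Function.Injective i)
    (hq : Function.Surjective q) (hex : LinearMap.range i = LinearMap.ker q)
    (hic : ∀ g v, i (X₁.ρ g v) = X.ρ g (i v)) (hqc : ∀ g v, q (X.ρ g v) = X₂.ρ g (q v)) :
    F.val X = F.val X₁ + F.val X₂ := by
  have hU : Inv X (LinearMap.ker q) := by
    intro g v hv
    rw [Submodule.mem_comap, LinearMap.mem_ker, hqc, LinearMap.mem_ker.1 hv, map_zero]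
  rw [F.add X (LinearMap.ker q) hU]
  congr 1
  · -- the sub is `X₁`
    refine (F.iso _ _ ⟨?_, ?_⟩).symm
    · exact (LinearEquiv.ofInjective i hi).trans (LinearEquiv.ofEq _ _ hex)
    · intro g v
      apply Subtype.ext
      exact hic g v
  · -- the quotient is `X₂`
    refine F.iso _ _ ⟨q.quotKerEquivOfSurjective hq, ?_⟩
    intro g v
    induction v using Submodule.Quotient.induction_on with
    | H v => exact hqc g v

/-- The representation on functions from a `G`-set to a representation. -/
def funRep (A : Type) [MulAction G A] (X : FRep K G) : Representation K G (A → X.V) where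
  toFun g :=
    { toFun := fun f a => X.ρ g (f (g⁻¹ • a))
      map_add' := fun f f' => by funext a; simp
      map_smul' := fun c f => by funext a; simp }
  map_one' := by
    apply LinearMap.ext
    intro f
    funext a
    simp
  map_mul' g h := by
    apply LinearMap.ext
    intro f
    funext a
    simp [mul_smul]

@[simp] theorem funRep_apply (A : Type) [MulAction G A] (X : FRep K G) (g : G) (f : A → X.V)
    (a : A) : funRep A X g f a = X.ρ g (f (g⁻¹ • a)) := rfl

/-- `Fun(A, X)` as a finite dimensional representation. -/
abbrev funFRep (A : Type) [MulAction G A] [Finite A] (X : FRep K G) : FRep K G :=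
  ⟨A → X.V, funRep A X⟩

/-- An equivariant bijection of `G`-sets induces an isomorphism. -/
def funFRepCongr {A B : Type} [MulAction G A] [MulAction G B] [Finite A] [Finite B]
    (X : FRep K G) (e : A ≃ B) (he : ∀ (g : G) a, e (g • a) = g • e a) :
    REquiv (funFRep A X) (funFRep B X) where
  e := LinearEquiv.funCongrLeft K X.V e.symm
  comm g f := by
    funext b
    have h1 : e.symm (g⁻¹ • b) = g⁻¹ • e.symm b := by
      apply e.injective
      rw [he, Equiv.apply_symm_apply, Equiv.apply_symm_apply]
    simp [LinearEquiv.funCongrLeft_apply, LinearMap.funLeft_apply, h1]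

/-- An bijection commuting with one group element gives equal characteristic polynomials. -/
theorem cp_funFRep_eq {A B : Type} [MulAction G A] [MulAction G B] [Finite A] [Finite B]
    (X : FRep K G) (g : G) (e : A ≃ B) (he : ∀ a, e (g • a) = g • e a) :
    cp (funFRep A X) g = cp (funFRep B X) g := by
  unfold cp
  have h1 : ∀ b, e (g⁻¹ • e.symm b) = g⁻¹ • b := by
    intro b
    have := he (g⁻¹ • e.symm b)
    rw [smul_inv_smul, Equiv.apply_symm_apply] at this
    rw [eq_inv_smul_iff]
    exact this.symm
  have : (funFRep B X).ρ g = (LinearEquiv.funCongrLeft K X.V e.symm).conj ((funFRep A X).ρ g) := by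
    apply LinearMap.ext
    intro f
    funext b
    simp [LinearEquiv.conj_apply, LinearEquiv.funCongrLeft_apply, LinearMap.funLeft_apply, h1]
  rw [this, LinearEquiv.charpoly_conj]

/-- Functions on a sum of `G`-sets. -/
theorem AddInv.val_funFRep_sum {M : Type} [AddCommMonoid M] (F : AddInv K G M)
    (A B : Type) [MulAction G A] [MulAction G B] [Finite A] [Finite B] (X : FRep K G) :
    F.val (funFRep (A ⊕ B) X) = F.val (funFRep A X) + F.val (funFRep B X) := by
  refine F.ses (funFRep A X) (funFRep (A ⊕ B) X) (funFRep B X)
    { toFun := fun f => Sum.elim f 0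
      map_add' := fun f f' => by funext x; cases x <;> simp
      map_smul' := fun c f => by funext x; cases x <;> simp }
    (LinearMap.funLeft K X.V Sum.inr) ?_ ?_ ?_ ?_ ?_
  · intro f f' h
    funext a
    exact congrFun h (Sum.inl a)
  · intro f
    exact ⟨Sum.elim 0 f, by funext b; simp [LinearMap.funLeft_apply]⟩
  · ext f
    simp only [LinearMap.mem_range, LinearMap.coe_mk, AddHom.coe_mk, LinearMap.mem_ker]
    constructor
    · rintro ⟨f', rfl⟩
      funext b
      simp [LinearMap.funLeft_apply]
    · intro h
      refine ⟨fun a => f (Sum.inl a), ?_⟩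
      funext x
      cases x with
      | inl a => rfl
      | inr b => exact (congrFun h b).symm
  · intro g f
    funext x
    cases x with
    | inl a => simp [Sum.smul_inl]
    | inr b => simp [Sum.smul_inr]
  · intro g f
    funext b
    simp [LinearMap.funLeft_apply, Sum.smul_inr]

end Fermat.Agent.Lib.ModRep
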