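/-
helper66 (P-S56, block (B) leaf): modular representation theory, part 6.

**The induction theorem for additive invariants** (Artin induction on `p`-regular classes for
the Grothendieck group of `K[G]`-modules, `K` a finite field of characteristic `p`): an additive
invariant which vanishes on all representations `Fun(G ⧸ D, X)` (`= Ind_D^G Res_D X`) with `D`
cyclic of order prime to `p` vanishes identically.
-/
import Fermat.Agent.Lib.ModRep.FunRep
import Fermat.Agent.Lib.ModRep.ArtinSets

set_option autoImplicit false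

open Module

namespace Fermat.Agent.Lib.ModRep

variable {K : Type} [Field K] {G : Type} [Group G]

/-- Functions on the empty `G`-set. -/
theorem AddInv.val_funFRep_of_isEmpty {M : Type} [AddCommMonoid M] (F : AddInv K G M)
    (A : Type) [MulAction G A] [Finite A] [IsEmpty A] (X : FRep K G) :
    F.val (funFRep A X) = 0 :=
  F.zero _ (inferInstanceAs (Subsingleton (A → X.V)))

/-- A sigma type over `Option α`. -/
def sigmaOptionEquiv {α : Type} (A : Option α → Type) :
    (Σ o, A o) ≃ A none ⊕ (Σ a, A (some a)) where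
  toFun x := match x with
    | ⟨none, y⟩ => Sum.inl y
    | ⟨some a, y⟩ => Sum.inr ⟨a, y⟩
  invFun x := match x with
    | Sum.inl y => ⟨none, y⟩
    | Sum.inr ⟨a, y⟩ => ⟨some a, y⟩
  left_inv x := by rcases x with ⟨_ | a, y⟩ <;> rfl
  right_inv x := by rcases x with y | ⟨a, y⟩ <;> rfl

/-- Functions on a sigma type of `G`-sets. -/
theorem AddInv.val_funFRep_sigma {M : Type} [AddCommMonoid M] (F : AddInv K G M) (X : FRep K G)
    (ι : Type) [Fintype ι] :
    ∀ (A : ι → Type) [∀ i, MulAction G (A i)] [∀ i, Finite (A i)],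
      F.val (funFRep (Σ i, A i) X) = ∑ i, F.val (funFRep (A i) X) := by
  refine Fintype.induction_empty_option (P := fun ι _ =>
    ∀ (A : ι → Type) [∀ i, MulAction G (A i)] [∀ i, Finite (A i)],
      F.val (funFRep (Σ i, A i) X) = ∑ i, F.val (funFRep (A i) X)) ?_ ?_ ?_ ι
  · intro α β _ e ih A _ _
    let _ : Fintype α := Fintype.ofEquiv β e.symm
    have h1 := ih (fun a => A (e a))
    rw [← Fintype.sum_equiv e (fun a => F.val (funFRep (A (e a)) X))
      (fun b => F.val (funFRep (A b) X)) (fun _ => rfl), ← h1]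
    refine (F.iso _ _ (funFRepCongr X (Equiv.sigmaCongrLeft e) ?_)).symm
    rintro g ⟨a, x⟩
    rfl
  · intro A _ _
    rw [F.val_funFRep_of_isEmpty]
    simp
  · intro α _ ih A _ _
    rw [Fintype.sum_option, ← ih (fun a => A (some a)),
      ← F.val_funFRep_sum (A none) (Σ a, A (some a)) X]
    refine F.iso _ _ (funFRepCongr X (sigmaOptionEquiv A) ?_)
    rintro g ⟨_ | a, x⟩ <;> rfl

/-- Functions on the one point `G`-set `G ⧸ ⊤`. -/
def funFRepTop (X : FRep K G) : REquiv (funFRep (G ⧸ (⊤ : Subgroup G)) X) X where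
  e :=
    { toFun := fun f => f (QuotientGroup.mk 1)
      map_add' := fun _ _ => rfl
      map_smul' := fun _ _ => rfl
      invFun := fun v _ => v
      left_inv := fun f => by
        funext a
        have : Subsingleton (G ⧸ (⊤ : Subgroup G)) := QuotientGroup.subsingleton_quotient_top
        rw [Subsingleton.elim a (QuotientGroup.mk 1)]
      right_inv := fun _ => rfl }
  comm g f := by
    have : Subsingleton (G ⧸ (⊤ : Subgroup G)) := QuotientGroup.subsingleton_quotient_top
    change X.ρ g (f (g⁻¹ • _)) = X.ρ g (f _)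
    rw [Subsingleton.elim (g⁻¹ • (QuotientGroup.mk 1 : G ⧸ (⊤ : Subgroup G))) (QuotientGroup.mk 1)]

/-- The `p`-regular reduction of characteristic polynomials (input of the induction theorem):
every `g` has a power `g ^ j` of order prime to `p` with the same characteristic polynomial on
every finite dimensional representation. -/
def PRegularReduction (K : Type) [Field K] (G : Type) [Group G] (p : ℕ) : Prop :=
  ∀ g : G, ∃ j : ℕ, (orderOf (g ^ j)).Coprime p ∧ ∀ X : FRep K G, cp X g = cp X (g ^ j)

/-- **The induction theorem**, with the `p`-regular reduction as a hypothesis. -/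
theorem additive_eq_zero_of_cyclic_of_reduction [Finite K] (p : ℕ) [Fact p.Prime] [CharP K p]
    [Finite G] (hred : PRegularReduction K G p) (F : AddInv K G ℤ)
    (hF : ∀ D : Subgroup G, IsCyclic D → (Nat.card D).Coprime p →
      ∀ X : FRep K G, F.val (funFRep (G ⧸ D) X) = 0)
    (X : FRep K G) : F.val X = 0 := by
  classical
  obtain ⟨ιp, ιn, _, _, Dp, Dn, hDp, hDn, hbij⟩ := exists_artin_sets (G := G) p
  have hcp : ∀ g, cp (funFRep (Σ i, G ⧸ Dp i) X) g =
      cp (funFRep ((Σ _ : Fin (Nat.card G), G ⧸ (⊤ : Subgroup G)) ⊕ (Σ i, G ⧸ Dn i)) X) g := by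
    intro g
    obtain ⟨j, hj, hcpj⟩ := hred g
    obtain ⟨e, he⟩ := hbij (g ^ j) hj
    rw [hcpj, hcpj]
    exact cp_funFRep_eq X (g ^ j) e he
  have key := brauer_nesbitt p _ _ hcp F
  rw [F.val_funFRep_sigma, F.val_funFRep_sum, F.val_funFRep_sigma, F.val_funFRep_sigma] at key
  rw [Finset.sum_eq_zero (fun i _ => hF (Dp i) (hDp i).1 (hDp i).2 X),
    Finset.sum_eq_zero (fun i _ => hF (Dn i) (hDn i).1 (hDn i).2 X), add_zero,
    Finset.sum_congr rfl (fun _ _ => F.iso _ _ (funFRepTop X)), Finset.sum_const,
    Finset.card_univ, Fintype.card_fin, nsmul_eq_mul] at key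
  have hG : (Nat.card G : ℤ) ≠ 0 := by
    exact_mod_cast Nat.card_pos.ne'
  rcases mul_eq_zero.1 key.symm with h | h
  · exact absurd h hG
  · exact h

end Fermat.Agent.Lib.ModRep
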