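/-
P-S56, block (B), leaf `Lib/ModRep` (owner of the directory: helper66).  This file (helper14):
the characteristic polynomial of a group element only depends on its `p`-regular part, in
characteristic `p`.

* `Matrix.charpoly_pow_char_pow'` : `M.charpoly ^ p ^ k = expand (p ^ k) (M ^ p ^ k).charpoly`;
* (PR1) `charpoly_mul_eq_of_commute_of_pow_eq_one` : `(f * u).charpoly = f.charpoly` for commuting
  `f`, `u` with `u ^ p ^ a = 1`;
* (PR2) `exists_pow_coprime_charpoly_eq` : for `g` in a finite group there is `j` with `g ^ j` of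
  order prime to `p` and `(ρ g).charpoly = (ρ (g ^ j)).charpoly` for every representation `ρ`.
-/
import Mathlib

set_option autoImplicit false

open Polynomial Matrix

namespace Fermat.Agent.Lib.ModRep

section MatrixPart

variable {n : Type*} [DecidableEq n] [Fintype n]

/-- Frobenius and the characteristic polynomial, in characteristic `p`. -/
theorem charpoly_pow_char_pow' {K : Type*} [Field K] (p : ℕ) [Fact p.Prime] [CharP K p]
    (M : Matrix n n K) (k : ℕ) :
    M.charpoly ^ p ^ k = expand K (p ^ k) (M ^ p ^ k).charpoly := by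
  cases (isEmpty_or_nonempty n).symm
  · unfold Matrix.charpoly
    rw [AlgHom.map_det, ← coe_detMonoidHom, ← (detMonoidHom : Matrix n n K[X] →* K[X]).map_pow]
    apply congr_arg det
    refine matPolyEquiv.injective ?_
    rw [map_pow, matPolyEquiv_charmatrix, sub_pow_char_pow_of_commute, ← C_pow]
    · exact ((id (matPolyEquiv_eq_X_pow_sub_C (p ^ k) M) :)).symm
    · exact (C M).commute_X
  · simp [Matrix.charpoly, Matrix.det_isEmpty]

/-- (PR1), matrix form. -/
theorem matrix_charpoly_mul_eq_of_commute_of_pow_eq_one {K : Type*} [Field K] (p : ℕ)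
    [Fact p.Prime] [CharP K p] (A U : Matrix n n K) (hAU : Commute A U) (a : ℕ)
    (hU : U ^ p ^ a = 1) : (A * U).charpoly = A.charpoly := by
  have h1 : (A * U) ^ p ^ a = A ^ p ^ a := by
    rw [hAU.mul_pow, hU, mul_one]
  have h2 : (A * U).charpoly ^ p ^ a = A.charpoly ^ p ^ a := by
    rw [charpoly_pow_char_pow' p (A * U) a, h1, ← charpoly_pow_char_pow' p A a]
  apply (frobenius_inj K[X] p).iterate a
  rw [iterate_frobenius, iterate_frobenius]
  exact h2

end MatrixPart

/-- **(PR1)** in characteristic `p`, multiplying by a commuting element of `p`-power order does not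
change the characteristic polynomial. -/
theorem charpoly_mul_eq_of_commute_of_pow_eq_one {K V : Type*} [Field K] (p : ℕ) [Fact p.Prime]
    [CharP K p] [AddCommGroup V] [Module K V] [Module.Finite K V] (f u : V →ₗ[K] V)
    (hfu : Commute f u) (a : ℕ) (hu : u ^ p ^ a = 1) : (f * u).charpoly = f.charpoly := by
  classical
  let b := Module.finBasis K V
  let T := LinearMap.toMatrixAlgEquiv b
  rw [← LinearMap.charpoly_toMatrix (f * u) b, ← LinearMap.charpoly_toMatrix f b]
  have hmul : LinearMap.toMatrix b b (f * u) = T f * T u := by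
    rw [← map_mul]; rfl
  rw [hmul]
  refine matrix_charpoly_mul_eq_of_commute_of_pow_eq_one p (T f) (T u) ?_ a ?_
  · exact hfu.map T
  · rw [← map_pow, hu, map_one]

/-- the `p`-regular part of an element of a finite group, as a power. -/
theorem exists_pow_regular {G : Type*} [Group G] [Finite G] (p : ℕ) [Fact p.Prime] (g : G) :
    ∃ (j i a : ℕ), (orderOf (g ^ j)).Coprime p ∧ g ^ j * g ^ i = g ∧ (g ^ i) ^ p ^ a = 1 := by
  have hp : p.Prime := Fact.out
  have hN : orderOf g ≠ 0 := (orderOf_pos g).ne'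
  obtain ⟨a, m, hpm, hNeq⟩ := Nat.exists_eq_pow_mul_and_not_dvd hN p hp.ne_one
  have hco : Nat.Coprime (p ^ a) m := Nat.Coprime.pow_left a ((Nat.Prime.coprime_iff_not_dvd hp).mpr hpm)
  obtain ⟨j, hj0, hj1⟩ := Nat.chineseRemainder hco 0 1
  obtain ⟨i, hi1, hi0⟩ := Nat.chineseRemainder hco 1 0
  refine ⟨j, i, a, ?_, ?_, ?_⟩
  · -- `(g ^ j) ^ m = 1`
    have hdvd : orderOf g ∣ j * m := by
      rw [hNeq]
      exact Nat.mul_dvd_mul ((Nat.modEq_zero_iff_dvd).mp hj0) dvd_rfl
    have h1 : (g ^ j) ^ m = 1 := by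
      rw [← pow_mul]; exact orderOf_dvd_iff_pow_eq_one.mp hdvd
    exact Nat.Coprime.coprime_dvd_left (orderOf_dvd_of_pow_eq_one h1)
      ((Nat.Prime.coprime_iff_not_dvd hp).mpr hpm).symm
  · rw [← pow_add]
    conv_rhs => rw [← pow_one g]
    rw [pow_eq_pow_iff_modEq, hNeq]
    refine (Nat.modEq_and_modEq_iff_modEq_mul hco).mp ⟨?_, ?_⟩
    · simpa using hj0.add hi1
    · simpa using hj1.add hi0
  · rw [← pow_mul]
    refine orderOf_dvd_iff_pow_eq_one.mp ?_
    rw [hNeq, mul_comm i]
    exact Nat.mul_dvd_mul dvd_rfl ((Nat.modEq_zero_iff_dvd).mp hi0)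

/-- **(PR2)** in characteristic `p`, the characteristic polynomial of a group element in any
representation is that of a fixed power of order prime to `p`. -/
theorem exists_pow_coprime_charpoly_eq {K : Type} [Field K] (p : ℕ) [Fact p.Prime] [CharP K p]
    {G : Type} [Group G] [Finite G] (g : G) :
    ∃ j : ℕ, (orderOf (g ^ j)).Coprime p ∧
      ∀ (V : Type) [AddCommGroup V] [Module K V] [Module.Finite K V] (ρ : Representation K G V),
        (ρ g).charpoly = (ρ (g ^ j)).charpoly := by
  obtain ⟨j, i, a, hj, hji, hi⟩ := exists_pow_regular p g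
  refine ⟨j, hj, fun V _ _ _ ρ => ?_⟩
  have h1 : ρ g = ρ (g ^ j) * ρ (g ^ i) := by
    rw [← map_mul, hji]
  rw [h1]
  refine charpoly_mul_eq_of_commute_of_pow_eq_one p (ρ (g ^ j)) (ρ (g ^ i)) ?_ a ?_
  · have : Commute (g ^ j) (g ^ i) := (Commute.refl g).pow_pow j i
    exact this.map ρ
  · rw [← map_pow, hi, map_one]

end Fermat.Agent.Lib.ModRep
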