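/-
helper66 (P-S56, block (B) leaf): modular representation theory, final export.

**The induction theorem for additive invariants**: let `K` be a finite field of characteristic
`p` and `G` a finite group.  An additive invariant `F` (with values in `ℤ`) of finite dimensional
representations of `G` over `K` which vanishes on all `Fun(G ⧸ D, X)` (`≅ Coind_D^G Res_D X
≅ X ⊗ K[G ⧸ D]`) for `D ≤ G` cyclic of order prime to `p` vanishes identically.
(= `K_0(K[G]) ⊗ ℚ` is spanned by the classes induced from cyclic subgroups of order prime to `p`.)
-/
import Fermat.Agent.Lib.ModRep.Induction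
import Fermat.Agent.Lib.ModRep.PRegular

set_option autoImplicit false

namespace Fermat.Agent.Lib.ModRep

variable {K : Type} [Field K] {G : Type} [Group G]

/-- The `p`-regular reduction holds for finite groups in characteristic `p`. -/
theorem pRegularReduction (p : ℕ) [Fact p.Prime] [CharP K p] [Finite G] :
    PRegularReduction K G p := by
  intro g
  obtain ⟨j, hj, h⟩ := exists_pow_coprime_charpoly_eq (K := K) p g
  exact ⟨j, hj, fun X => h X.V X.ρ⟩

/-- **The induction theorem.** -/
theorem additive_eq_zero_of_cyclic [Finite K] (p : ℕ) [Fact p.Prime] [CharP K p] [Finite G]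
    (F : AddInv K G ℤ)
    (hF : ∀ D : Subgroup G, IsCyclic D → (Nat.card D).Coprime p →
      ∀ X : FRep K G, F.val (funFRep (G ⧸ D) X) = 0)
    (X : FRep K G) : F.val X = 0 :=
  additive_eq_zero_of_cyclic_of_reduction p (pRegularReduction p) F hF X

end Fermat.Agent.Lib.ModRep
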