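/-
helper66 (P-S56, block (B) leaf): modular representation theory, consumer glue.

The induction theorem `additive_eq_zero_of_cyclic` restated for functions on Mathlib's category
`Rep K G` (universe `0`) which are invariant under isomorphisms and additive in short exact
sequences.
-/
import Fermat.Agent.Lib.ModRep.Main

set_option autoImplicit false

open CategoryTheory Module

namespace Fermat.Agent.Lib.ModRep

variable {K : Type} [Field K] {G : Type} [Group G]

/-- The representation on functions from a `G`-set `A` to a representation:
`(g f)(a) = ρ g (f (g⁻¹ a))`. -/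
def permRepresentation (A : Type) [MulAction G A] {V : Type} [AddCommGroup V] [Module K V]
    (ρ : Representation K G V) : Representation K G (A → V) where
  toFun g :=
    { toFun := fun f a => ρ g (f (g⁻¹ • a))
      map_add' := fun f f' => by funext a; simp
      map_smul' := fun c f => by funext a; simp }
  map_one' := by
    apply LinearMap.ext
    intro f
    funext a
    simp
  map_mul' g h := by
    apply LinearMap.ext
    intro f
    funext a
    simp [mul_smul]

@[simp] theorem permRepresentation_apply (A : Type) [MulAction G A] {V : Type} [AddCommGroup V]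
    [Module K V] (ρ : Representation K G V) (g : G) (f : A → V) (a : A) :
    permRepresentation A ρ g f a = ρ g (f (g⁻¹ • a)) := rfl

/-- `Fun(A, X)` as an object of `Rep K G`: `(g f)(a) = X.ρ g (f (g⁻¹ a))`. -/
abbrev permRep (A : Type) [MulAction G A] (X : Rep.{0} K G) : Rep.{0} K G :=
  Rep.of (permRepresentation A X.ρ)

/-- The object of `Rep K G` of a bundled finite dimensional representation. -/
abbrev FRep.toRep (X : FRep K G) : Rep.{0} K G := Rep.of X.ρ

/-- The bundled finite dimensional representation of a finite dimensional object of `Rep K G`. -/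
abbrev FRep.ofRep (X : Rep.{0} K G) [Module.Finite K X] : FRep K G := ⟨X.V, X.ρ⟩

theorem funRep_eq_permRepresentation (A : Type) [MulAction G A] (X : FRep K G) :
    funRep A X = permRepresentation A X.ρ := rfl

/-- An equivariant linear equivalence gives an isomorphism in `Rep K G`. -/
def REquiv.toIso {X Y : FRep K G} (f : REquiv X Y) : X.toRep ≅ Y.toRep :=
  Rep.mkIso
    { toLinearEquiv := f.e
      isIntertwining' := fun g => by
        apply LinearMap.ext
        intro v
        exact (f.comm g v) }


/-- The short complex `0 ⟶ U ⟶ X ⟶ X ⧸ U ⟶ 0` in `Rep K G` of an invariant subspace. -/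
noncomputable def subQuotSeq (X : FRep K G) (U : Submodule K X.V) (hU : Inv X U) :
    ShortComplex (Rep.{0} K G) :=
  ShortComplex.mk
    (Rep.ofHom (LinearMap.intertwiningMap_of_isIntertwiningMap (ρ := (X.sub U hU).ρ) (σ := X.ρ)
      (f := U.subtype) (fun _ _ => rfl)) : (X.sub U hU).toRep ⟶ X.toRep)
    (Rep.ofHom (LinearMap.intertwiningMap_of_isIntertwiningMap (ρ := X.ρ) (σ := (X.quot U hU).ρ)
      (f := U.mkQ) (fun _ _ => rfl)) : X.toRep ⟶ (X.quot U hU).toRep)
    (by
      apply Rep.hom_ext
      apply Representation.IntertwiningMap.ext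
      apply LinearMap.ext
      intro v
      exact (Submodule.Quotient.mk_eq_zero U).2 v.2)

theorem subQuotSeq_shortExact (X : FRep K G) (U : Submodule K X.V) (hU : Inv X U) :
    (subQuotSeq X U hU).ShortExact where
  exact := by
    rw [← ShortComplex.exact_map_iff_of_faithful _ (forget₂ (Rep.{0} K G) (ModuleCat.{0} K))]
    rw [ShortComplex.moduleCat_exact_iff_range_eq_ker]
    change LinearMap.range U.subtype = LinearMap.ker U.mkQ
    rw [Submodule.range_subtype, Submodule.ker_mkQ]
  mono_f := (Rep.mono_iff_injective _).2 (fun a b h => Subtype.ext h)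
  epi_g := (Rep.epi_iff_surjective _).2 (Submodule.mkQ_surjective U)

/-- A function on `Rep K G` which is invariant under isomorphisms and additive in short exact
sequences (with finite dimensional middle term) is an additive invariant. -/
noncomputable def AddInv.ofRep {M : Type} [AddCommGroup M] (φ : Rep.{0} K G → M)
    (hiso : ∀ A B : Rep.{0} K G, Module.Finite K A → (A ≅ B) → φ A = φ B)
    (hadd : ∀ X : ShortComplex (Rep.{0} K G), X.ShortExact → Module.Finite K X.X₂ →
      φ X.X₂ = φ X.X₁ + φ X.X₃) : AddInv K G M :=
  AddInv.ofGroup (fun X => φ X.toRep)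
    (fun X _ f => hiso _ _ (inferInstanceAs (Module.Finite K X.V)) f.toIso)
    (fun X U hU => hadd (subQuotSeq X U hU) (subQuotSeq_shortExact X U hU)
      (inferInstanceAs (Module.Finite K X.V)))

@[simp] theorem AddInv.ofRep_val {M : Type} [AddCommGroup M] (φ : Rep.{0} K G → M)
    (hiso : ∀ A B : Rep.{0} K G, Module.Finite K A → (A ≅ B) → φ A = φ B)
    (hadd : ∀ X : ShortComplex (Rep.{0} K G), X.ShortExact → Module.Finite K X.X₂ →
      φ X.X₂ = φ X.X₁ + φ X.X₃) (X : FRep K G) :
    (AddInv.ofRep φ hiso hadd).val X = φ X.toRep := rfl

/-- **The induction theorem, `Rep` form.**  Let `K` be a finite field of characteristic `p`, `G` a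
finite group, and `φ` a function on `Rep K G` which is invariant under isomorphisms and additive in
short exact sequences (with finite dimensional middle term).  If `φ` vanishes on `Fun(G ⧸ D, X)`
(`permRep`, the representation (co)induced from the restriction of `X` to `D`) for all cyclic
subgroups `D` of order prime to `p` and all finite dimensional `X`, then `φ` vanishes on all finite
dimensional representations. -/
theorem rep_additive_eq_zero_of_cyclic [Finite K] (p : ℕ) [Fact p.Prime] [CharP K p] [Finite G]
    (φ : Rep.{0} K G → ℤ)
    (hiso : ∀ A B : Rep.{0} K G, Module.Finite K A → (A ≅ B) → φ A = φ B)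
    (hadd : ∀ X : ShortComplex (Rep.{0} K G), X.ShortExact → Module.Finite K X.X₂ →
      φ X.X₂ = φ X.X₁ + φ X.X₃)
    (hind : ∀ D : Subgroup G, IsCyclic D → (Nat.card D).Coprime p →
      ∀ X : Rep.{0} K G, Module.Finite K X → φ (permRep (G ⧸ D) X) = 0)
    (X : Rep.{0} K G) [Module.Finite K X] : φ X = 0 :=
  additive_eq_zero_of_cyclic p (AddInv.ofRep φ hiso hadd)
    (fun D hD hp Y => hind D hD hp Y.toRep (inferInstanceAs (Module.Finite K Y.V)))
    (FRep.ofRep X)

end Fermat.Agent.Lib.ModRep
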